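import Mathlib
import Fermat.Prelude.Def_GaloisRep_ComplexConjugation
import Fermat.Prelude.Def_ModularCurve_ArithmeticGalois
import Fermat.Agent.MUL.F3.I2.Descent.Uncond
import Fermat.Agent.MUL.Orig.S24.Residue
import Fermat.Agent.MUL.F3.I2.Kappa.CharOf
import Fermat.Agent.MUL.Orig.S22.GammaFG
import Fermat.Agent.MUL.E.Desc.W.Basic
import Fermat.Agent.MUL.F3.I2.Final
import Fermat.Agent.MUL.F3.TorsFin.Exists
import Fermat.Agent.MUL.E.Desc.MainDefs

section MergeWrap_E_Desc_W_BcConj -- from E/Desc/W/BcConj.lean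

/-!
# Cluster E' (descent, `EisReal`), leaf W-K2 (helper17): the base change `ℚ̄ → ℂ` of `J₀(N)`
commutes with the complex conjugation

`descBc_conj : descBc N (complexConjugation • y) = complexConjAlgEquiv • descBc N y`.

Proof: `θ (c f) = conj (θ f)` on functions (coefficientwise, `complexEmbedding_complexConjugation`);
for a place `v` the place `w = conj • ext v` of `F_ℂ` is not trivial on `F_ℚ̄`, so `w = ext v'`
(`descExtQC_dich`), and `ord_{v'} f = ord_{c v} f` for all `f`, so `v' = c v`; hence on divisors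
and on classes.
-/

set_option autoImplicit false
set_option linter.unusedSectionVars false
set_option linter.unusedVariables false
set_option linter.style.haveILetI false
set_option synthInstance.maxHeartbeats 400000

noncomputable section

open AlgebraicCurve ModularCurve

namespace Fermat.Agent.EDescW

open Fermat.Agent.F3I2 Fermat.Agent.RR

local notation "Qb" => AlgebraicClosure ℚ

section Generic

variable {K F : Type*} [Field K] [Field F] [Algebra K F]

theorem bcConj_ord_smul (g : SemilinearAut K F) (w : Place K F) (f : F) :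
    w.ord (g • f) = (g⁻¹ • w).ord f := by
  have h := SemilinearAut.ord_smul g (g⁻¹ • w) f
  rwa [smul_inv_smul] at h

/-- a place is determined by its order function. -/
theorem bcConj_place_ext {v v' : Place K F} (h : ∀ f : F, v'.ord f = v.ord f) : v' = v := by
  apply Place.ext
  ext f
  constructor
  · intro hf
    have h1 := Fermat.Agent.S24Res.ord_nonneg_of_mem v' hf
    rw [h f] at h1
    exact Fermat.Agent.S24Res.mem_of_ord_nonneg v h1
  · intro hf
    have h1 := Fermat.Agent.S24Res.ord_nonneg_of_mem v hf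
    rw [← h f] at h1
    exact Fermat.Agent.S24Res.mem_of_ord_nonneg v' h1

end Generic

variable (N : ℕ) [NeZero N]

/-- the conjugation of `F_ℚ̄(N)` -/
abbrev conjQ : SemilinearAut Qb (modularFunctionFieldBar N) :=
  arithmeticGalois (modularFunctionFieldFull N) complexConjugation

/-- the conjugation of `F_ℂ(N)` -/
abbrev conjC : SemilinearAut ℂ (laurentBaseChange ℂ (modularFunctionFieldFull N)) :=
  arithmeticGalois (modularFunctionFieldFull N) complexConjAlgEquiv

theorem descQbarC_conj (a : Qb) :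
    descQbarC (complexConjugation a) = complexConjAlgEquiv (descQbarC a) :=
  complexEmbedding_complexConjugation a

/-- `θ (c f) = conj (θ f)` -/
theorem descTheta_conj (f : modularFunctionFieldBar N) :
    descThetaQC N (conjQ N • f) = conjC N • descThetaQC N f := by
  apply Subtype.ext
  ext n
  rw [coe_descThetaQC_coeff]
  show descQbarC (complexConjugation ((f : LaurentSeries Qb).coeff n)) =
    complexConjAlgEquiv (((descThetaQC N f : laurentBaseChange ℂ (modularFunctionFieldFull N)) :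
      LaurentSeries ℂ).coeff n)
  rw [coe_descThetaQC_coeff, descQbarC_conj]

theorem descTheta_conj_inv (f : modularFunctionFieldBar N) :
    descThetaQC N ((conjQ N)⁻¹ • f) = (conjC N)⁻¹ • descThetaQC N f := by
  have h := descTheta_conj N ((conjQ N)⁻¹ • f)
  rw [smul_inv_smul] at h
  rw [h, inv_smul_smul]

/-- `ext (c v) = conj (ext v)` -/
theorem descExt_conj (v : Place Qb (modularFunctionFieldBar N)) :
    descExt N (conjQ N • v) = conjC N • descExt N v := by
  have hord : ∀ f : modularFunctionFieldBar N,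
      (conjC N • descExt N v).ord (descThetaQC N f) = (conjQ N • v).ord f := by
    intro f
    have h1 := bcConj_ord_smul (conjC N) (conjC N • descExt N v) ((conjC N)⁻¹ • descThetaQC N f)
    rw [smul_inv_smul, inv_smul_smul, ← descTheta_conj_inv, ord_descExt] at h1
    rw [h1]
    have h2 := bcConj_ord_smul (conjQ N) (conjQ N • v) ((conjQ N)⁻¹ • f)
    rw [smul_inv_smul, inv_smul_smul] at h2
    exact h2.symm
  rcases descExtQC_dich (Fermat.Agent.RRMod.isRRField_bar N) (conjC N • descExt N v) with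
    ⟨v', hv'⟩ | h0
  · have hv'' : descExt N v' = conjC N • descExt N v := hv'
    have e : v' = conjQ N • v := by
      apply bcConj_place_ext
      intro f
      rw [← hord f, ← hv'', ord_descExt]
    rw [← e]
    exact hv''
  · exfalso
    obtain ⟨t, ht⟩ := exists_uniformizer (conjQ N • v)
    have h1 := h0 t
    rw [hord t, ht] at h1
    exact one_ne_zero h1

/-- `bc (c D) = conj (bc D)` on divisors -/
theorem descBcDiv_conj (D : Divisor Qb (modularFunctionFieldBar N)) :
    descBcDiv N (conjQ N • D) = conjC N • descBcDiv N D := by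
  induction D using Finsupp.induction with
  | zero => rw [smul_zero, map_zero, smul_zero]
  | single_add v n D _ _ ih =>
    rw [smul_add, map_add, map_add, smul_add, ih, SemilinearAut.smul_single, descBcDiv_single,
      descBcDiv_single, SemilinearAut.smul_single, descExt_conj]

/-- **the base change commutes with the complex conjugation.** -/
theorem descBc_conj (y : JZero N) :
    descBc N (complexConjugation • y) = complexConjAlgEquiv • descBc N y := by
  obtain ⟨D, rfl⟩ := Pic0.mk_surjective y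
  rw [galois_smul_pic0_def, galois_smul_pic0_def, SemilinearAut.pic0_smul_mk, descBc_mk,
    descBc_mk, SemilinearAut.pic0_smul_mk]
  refine congrArg Pic0.mk (Subtype.ext ?_)
  exact descBcDiv_conj N (D : Divisor Qb (modularFunctionFieldBar N))

end Fermat.Agent.EDescW
end
end MergeWrap_E_Desc_W_BcConj

section MergeWrap_E_Desc_W_LiftCore -- from E/Desc/W/LiftCore.lean

/-!
# E' / Desc / W / LiftCore : lifting characters of a finitely generated group (helper90)

`G` a finitely generated group, `P ⊆ G`.  There is `e > 0` such that for every commutative group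
`Y`, every `ζ ∈ Y` and every character `χ : G →* Y` with values in `⟨ζ⟩`, trivial on `P`, the
character `χ ^ e` is `g ↦ ζ ^ c g` for a homomorphism `c : G → ℤ` vanishing on `P`.

Proof: `A = G^ab / ⟨P⟩` is a finitely generated abelian group, `e = #A_tors`, `A / A_tors` is free
(projective), and `χ ^ e` factors through it.
-/

set_option autoImplicit false
set_option linter.unusedSectionVars false
set_option linter.style.haveILetI false

namespace Fermat.Agent.EDescW

open Submodule

/-- **lifting characters up to a bounded exponent**. -/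
theorem exists_exponent_lift (G : Type*) [Group G] (hG : Group.FG G) (P : Set G) :
    ∃ e : ℕ, 0 < e ∧ ∀ (Y : Type) [CommGroup Y] (ζ : Y) (χ : G →* Y),
      (∀ g, χ g ∈ Subgroup.zpowers ζ) → (∀ g ∈ P, χ g = 1) →
      ∃ c : Additive G →+ ℤ, (∀ g ∈ P, c (Additive.ofMul g) = 0) ∧
        ∀ g, ζ ^ (c (Additive.ofMul g)) = χ g ^ e := by
  classical
  -- the abelian group `A = G^ab / ⟨P⟩`
  let M := Additive (Abelianization G)
  let q₀ : Additive G →+ M := MonoidHom.toAdditive (Abelianization.of (G := G))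
  have hof : Function.Surjective (Abelianization.of (G := G)) := fun x =>
    QuotientGroup.mk_surjective x
  have hq₀ : Function.Surjective q₀ := fun m => by
    obtain ⟨g, hg⟩ := hof (Additive.toMul m)
    exact ⟨Additive.ofMul g, congrArg Additive.ofMul hg⟩
  haveI : Group.FG (Abelianization G) := by
    haveI := hG
    exact Group.fg_of_surjective (f := Abelianization.of (G := G)) hof
  haveI : AddGroup.FG M := inferInstance
  haveI : Module.Finite ℤ M := Module.Finite.iff_addGroup_fg.mpr inferInstance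
  let P' : Submodule ℤ M := span ℤ ((fun g => q₀ (Additive.ofMul g)) '' P)
  let T : Submodule ℤ (M ⧸ P') := torsion ℤ (M ⧸ P')
  haveI : Finite T := Module.finite_of_fg_torsion _ (torsion_isTorsion)
  refine ⟨Nat.card T, Nat.card_pos, fun Y _ ζ χ hχ hP => ?_⟩
  -- the character on `M`
  let φ₀ : M →ₗ[ℤ] Additive Y :=
    (MonoidHom.toAdditive (Abelianization.lift χ)).toIntLinearMap
  have hφ₀ : ∀ g : G, φ₀ (q₀ (Additive.ofMul g)) = Additive.ofMul (χ g) := fun g => by
    show Additive.ofMul (Abelianization.lift χ (Abelianization.of g)) = _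
    rw [Abelianization.lift_apply_of]
  have hP' : P' ≤ LinearMap.ker φ₀ := by
    refine span_le.2 ?_
    rintro _ ⟨g, hg, rfl⟩
    show φ₀ (q₀ (Additive.ofMul g)) = 0
    rw [hφ₀, hP g hg]
    rfl
  let φ₁ : (M ⧸ P') →ₗ[ℤ] Additive Y := P'.liftQ φ₀ hP'
  have hT : T ≤ LinearMap.ker ((Nat.card T : ℤ) • φ₁) := by
    intro t ht
    have h1 : (Nat.card T) • (⟨t, ht⟩ : T) = 0 := card_nsmul_eq_zero'
    have h2 : (Nat.card T) • t = 0 := congrArg Subtype.val h1
    show ((Nat.card T : ℤ) • φ₁) t = 0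
    rw [LinearMap.smul_apply, ← map_smul, natCast_zsmul, h2, map_zero]
  let φ₂ : ((M ⧸ P') ⧸ T) →ₗ[ℤ] Additive Y := T.liftQ ((Nat.card T : ℤ) • φ₁) hT
  -- the target `⟨ζ⟩`
  let π : ℤ →ₗ[ℤ] Additive Y := LinearMap.toSpanSingleton ℤ (Additive Y) (Additive.ofMul ζ)
  have hπ : ∀ k : ℤ, π k = Additive.ofMul (ζ ^ k) := fun k => by
    show k • Additive.ofMul ζ = _
    rfl
  have hrange : ∀ b, φ₂ b ∈ LinearMap.range π := by
    intro b
    obtain ⟨a, rfl⟩ := T.mkQ_surjective b
    obtain ⟨m, rfl⟩ := P'.mkQ_surjective a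
    obtain ⟨g, rfl⟩ := hq₀ m
    obtain ⟨k, hk⟩ := hχ (Additive.toMul g)
    refine ⟨(Nat.card T : ℤ) * k, ?_⟩
    show _ = ((Nat.card T : ℤ) • φ₁) (P'.mkQ (q₀ g))
    rw [LinearMap.smul_apply]
    show _ = (Nat.card T : ℤ) • φ₀ (q₀ g)
    have hg : φ₀ (q₀ g) = Additive.ofMul (χ (Additive.toMul g)) := hφ₀ (Additive.toMul g)
    rw [hg, ← hk, ← hπ, ← map_smul, smul_eq_mul]
  -- lift along `π`
  obtain ⟨ψ, hψ⟩ := Module.projective_lifting_property (LinearMap.rangeRestrict π)
    (LinearMap.codRestrict (LinearMap.range π) φ₂ hrange)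
    (LinearMap.surjective_rangeRestrict π)
  have hψ' : ∀ b, π (ψ b) = φ₂ b := fun b => by
    have := congrArg (fun f => ((f b : LinearMap.range π) : Additive Y)) hψ
    exact this
  let c : Additive G →+ ℤ :=
    (ψ.toAddMonoidHom.comp (T.mkQ.toAddMonoidHom.comp P'.mkQ.toAddMonoidHom)).comp q₀
  refine ⟨c, fun g hg => ?_, fun g => ?_⟩
  · show ψ (T.mkQ (P'.mkQ (q₀ (Additive.ofMul g)))) = 0
    have : P'.mkQ (q₀ (Additive.ofMul g)) = 0 := by
      rw [mkQ_apply, Quotient.mk_eq_zero]
      exact subset_span ⟨g, hg, rfl⟩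
    rw [this, map_zero, map_zero]
  · have h1 : π (c (Additive.ofMul g)) = φ₂ (T.mkQ (P'.mkQ (q₀ (Additive.ofMul g)))) :=
      hψ' _
    have h2 : φ₂ (T.mkQ (P'.mkQ (q₀ (Additive.ofMul g)))) =
        (Nat.card T : ℤ) • φ₀ (q₀ (Additive.ofMul g)) := rfl
    rw [hπ, h2, hφ₀, natCast_zsmul] at h1
    exact congrArg Additive.toMul h1

end Fermat.Agent.EDescW
end MergeWrap_E_Desc_W_LiftCore

section MergeWrap_E_Desc_W_Lift -- from E/Desc/W/Lift.lean

/-!
# E' / Desc / W / Lift : W-LIFT (helper90)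

There is `e > 0` such that for every `n > 0` and every character `χ` of `Γ₀(N)` with `χ ^ n = 1`,
trivial on the elements of trace `± 2`, the character `χ ^ e` is `charOf n c` for some
`c ∈ HomPar N = Hom_par(Γ₀(N), ℤ)`.
-/

set_option autoImplicit false
set_option linter.style.haveILetI false

noncomputable section

namespace Fermat.Agent.EDescW

open CongruenceSubgroup
open scoped MatrixGroups
open Fermat.Agent.F3I2 Fermat.Agent.F3EC

/-- **W-LIFT**. -/
theorem exists_lift_exponent (N : ℕ) [NeZero N] :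
    ∃ e : ℕ, 0 < e ∧ ∀ n : ℕ, 0 < n → ∀ χ : ↥(Gamma0 N) →* ℂˣ, (∀ γ, χ γ ^ n = 1) →
      (∀ γ : ↥(Gamma0 N),
        ((γ : SL(2, ℤ)) : Matrix (Fin 2) (Fin 2) ℤ).trace ^ 2 = 4 → χ γ = 1) →
      ∃ c : HomPar N, χ ^ e = charOf n c := by
  obtain ⟨e, he, h⟩ := exists_exponent_lift ↥(Gamma0 N) (Fermat.Agent.S22.fg_Gamma0 N)
    {γ | ((γ : SL(2, ℤ)) : Matrix (Fin 2) (Fin 2) ℤ).trace ^ 2 = 4}
  refine ⟨e, he, fun n hn χ hχ hpar => ?_⟩
  haveI : NeZero n := ⟨hn.ne'⟩
  have hprim : IsPrimitiveRoot ((rootUnit n : ℂˣ) : ℂ) n :=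
    IsPrimitiveRoot.coe_units_iff.2 (isPrimitiveRoot_rootUnit hn.ne')
  obtain ⟨c, hc, hcχ⟩ := h ℂˣ (rootUnit n) χ (fun γ => by
    have h1 : ((χ γ : ℂˣ) : ℂ) ^ n = 1 := by
      rw [← Units.val_pow_eq_pow_val, hχ γ, Units.val_one]
    obtain ⟨i, -, hi⟩ := hprim.eq_pow_of_pow_eq_one h1
    refine ⟨(i : ℤ), ?_⟩
    show rootUnit n ^ (i : ℤ) = χ γ
    rw [zpow_natCast]
    apply Units.ext
    rw [Units.val_pow_eq_pow_val]
    exact hi) (fun γ hγ => hpar γ hγ)
  refine ⟨⟨c, fun γ hγ => hc γ hγ⟩, ?_⟩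
  ext γ
  rw [MonoidHom.pow_apply, charOf_apply]
  exact congrArg Units.val (hcχ γ).symm

end Fermat.Agent.EDescW
end
end MergeWrap_E_Desc_W_Lift

section MergeWrap_E_Desc_W_Kap -- from E/Desc/W/Kap.lean

set_option autoImplicit false
set_option linter.style.haveILetI false

noncomputable section

namespace Fermat.Agent.EDescW

open ModularCurve ModularCurve.Period CongruenceSubgroup AlgebraicCurve
open Fermat.Agent.F3I2 Fermat.Agent.F3EC
open scoped MatrixGroups

/-- the statement of the leaf W-K1. -/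
def ThetaConjStatement (N : ℕ) [NeZero N] : Prop :=
  ∀ (n : ℕ) (χ : ↥(Gamma0 N) →* ℂˣ) (c : Pic0 ℂ (FC N)),
    IsTheta N n χ c → IsTheta N n (conjChar N χ) (complexConjAlgEquiv • c)

/-- the statement of the leaf W-PAR. -/
def ParStatement (N : ℕ) [NeZero N] : Prop :=
  ∀ (n : ℕ), n ≠ 0 → ∀ (χ : ↥(Gamma0 N) →* ℂˣ) (c : Pic0 ℂ (FC N)),
    IsTheta N n χ c → ∀ γ : ↥(Gamma0 N), IsPar γ → χ γ = 1

variable (N : ℕ) [NeZero N]

theorem kap_exists {n : ℕ} (hn : 0 < n) (c : HomPar N) :
    ∃ y : JZero N, IsKappa (descBc N) n c y :=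
  exists_isKappa (Fermat.Agent.F3RatioCusp.dictD2a N) (Fermat.Agent.F3Charts.dictHPD N)
    (fun n hn x' hx' => by
      obtain ⟨x, hx, -⟩ := descBc_surjective_torsion N n hn x' hx'
      exact ⟨x, hx⟩) hn c

/-- `κ_n` as a function (`0` for `n = 0`). -/
def kap (n : ℕ) (c : HomPar N) : JZero N :=
  if hn : 0 < n then (kap_exists N hn c).choose else 0

variable {N}

theorem kap_spec {n : ℕ} (hn : 0 < n) (c : HomPar N) : IsKappa (descBc N) n c (kap N n c) := by
  rw [kap, dif_pos hn]
  exact (kap_exists N hn c).choose_spec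

theorem kap_eq {n : ℕ} (hn : 0 < n) {c : HomPar N} {y : JZero N}
    (h : IsKappa (descBc N) n c y) : kap N n c = y :=
  (kap_spec hn c).unique (descBc_injective N) hn.ne' h

theorem kap_zero {n : ℕ} (hn : 0 < n) : kap N n 0 = 0 :=
  kap_eq hn (IsKappa.zero n)

theorem kap_add {n : ℕ} (hn : 0 < n) (c c' : HomPar N) :
    kap N n (c + c') = kap N n c + kap N n c' :=
  kap_eq hn ((kap_spec hn c).add hn.ne' (kap_spec hn c'))

theorem kap_neg {n : ℕ} (hn : 0 < n) (c : HomPar N) : kap N n (-c) = -kap N n c := by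
  have h := kap_add hn c (-c)
  rw [add_neg_cancel, kap_zero hn] at h
  exact (neg_eq_of_add_eq_zero_right h.symm).symm

theorem kap_sub {n : ℕ} (hn : 0 < n) (c c' : HomPar N) :
    kap N n (c - c') = kap N n c - kap N n c' := by
  rw [sub_eq_add_neg, kap_add hn, kap_neg hn, sub_eq_add_neg]

theorem kap_nsmul {n : ℕ} (hn : 0 < n) (m : ℕ) (c : HomPar N) :
    kap N n (m • c) = m • kap N n c := by
  induction m with
  | zero => rw [zero_nsmul, zero_nsmul, kap_zero hn]
  | succ m ih => rw [succ_nsmul, succ_nsmul, kap_add hn, ih]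

theorem nsmul_kap {n : ℕ} (hn : 0 < n) (c : HomPar N) : n • kap N n c = 0 :=
  (kap_spec hn c).nsmul_eq_zero (descBc_injective N)

theorem kap_eq_zero_iff {n : ℕ} (hn : 0 < n) (c : HomPar N) :
    kap N n c = 0 ↔ ∃ c' : HomPar N, c = n • c' := by
  constructor
  · intro h
    have h1 := kap_spec hn c
    rw [h] at h1
    obtain ⟨c', hc'⟩ := h1.ker (Fermat.Agent.F3Charts.dictConst N) hn.ne'
    exact ⟨c', by rw [hc', natCast_zsmul]⟩
  · rintro ⟨c', rfl⟩
    rw [kap_nsmul hn, nsmul_kap hn]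

theorem kap_hecke {n : ℕ} (hn : 0 < n) (ℓ : Nat.Primes) (hℓN : ¬ (ℓ : ℕ) ∣ N) (c : HomPar N) :
    kap N n (heckeHom N ℓ c) = heckeOperatorBar N ℓ (kap N n c) := by
  haveI : NeZero (ℓ : ℕ) := ⟨ℓ.2.ne_zero⟩
  exact kap_eq hn ((kap_spec hn c).hecke ℓ hℓN
    (Fermat.Agent.HeckeInputs.hi_heckeInputsAlong_complex N ℓ) (dictD3 N ℓ ℓ.2 hℓN) hn.ne'
    (descBc_hecke N ℓ (kap N n c)))

/-- **(K)** the complex conjugation on `κ_n`. -/
theorem kap_conj (hK1 : ThetaConjStatement N) {n : ℕ} (hn : 0 < n) (c : HomPar N) :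
    complexConjugation • kap N n c = kap N n (-conjHom N c) := by
  symm
  apply kap_eq hn
  have h := hK1 n _ _ (kap_spec hn c)
  rw [IsKappa, descBc_conj, ← conjChar_charOf]
  exact h

/-- **(SURJ)** `e • J₀(N)[n] ⊆ κ_n (HomPar N)`, `e` independent of `n`. -/
theorem exists_kap_eq_nsmul (N : ℕ) [NeZero N] (hPar : ParStatement N) :
    ∃ e : ℕ, 0 < e ∧ ∀ n : ℕ, 0 < n → ∀ y : JZero N, n • y = 0 →
      ∃ c : HomPar N, kap N n c = e • y := by
  obtain ⟨e, he, hlift⟩ := exists_lift_exponent N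
  refine ⟨e, he, fun n hn y hy => ?_⟩
  have hy' : n • descBc N y = 0 := by rw [← map_nsmul, hy, map_zero]
  obtain ⟨χ, hχ⟩ := Fermat.Agent.F3TF.exists_isTheta_of_torsion hn.ne' (descBc N y) hy'
  obtain ⟨c, hc⟩ := hlift n hn χ hχ.1 (fun γ hγ => hPar n hn.ne' χ _ hχ γ hγ)
  refine ⟨c, kap_eq hn ?_⟩
  rw [IsKappa, ← hc, map_nsmul]
  exact hχ.pow hn.ne' e

end Fermat.Agent.EDescW
end
end MergeWrap_E_Desc_W_Kap

section MergeWrap_E_Desc_W_Core -- from E/Desc/W/Core.lean

set_option autoImplicit false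
set_option linter.style.haveILetI false

noncomputable section

namespace Fermat.Agent.EDescW

open ModularCurve ModularCurve.Period CongruenceSubgroup AlgebraicCurve
open Fermat.Agent.F3I2 Fermat.Agent.F3EC Fermat.Agent.EDesc
open scoped MatrixGroups

/-- the statement of the leaf W-SWAP. -/
def SwapStatement (N : ℕ) [NeZero N] : Prop :=
  ∃ (ψ ψ' : HomPar N →ₗ[ℤ] HomPar N) (d : ℕ), 0 < d ∧ (∀ c, ψ' (ψ c) = d • c) ∧
    (∀ ℓ : Nat.Primes, ¬ (ℓ : ℕ) ∣ N → ∀ c, ψ (heckeHom N ℓ c) = heckeHom N ℓ (ψ c)) ∧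
    (∀ c, ψ (conjHom N c) = -conjHom N (ψ c))

/-! ### a counting lemma -/

/-- if the fibres of `f : A → B` lie in translates of a finite set `K`, then `#A ≤ #K · #B`. -/
theorem card_le_mul_of_fibre {A B G : Type*} [AddGroup G] [Finite B] (K : Set G) (hK : K.Finite)
    (ι : A → G) (hι : Function.Injective ι) (f : A → B)
    (h : ∀ a a' : A, f a = f a' → ι a - ι a' ∈ K) : Nat.card A ≤ Nat.card K * Nat.card B := by
  classical
  haveI : Finite K := hK.to_subtype
  rcases isEmpty_or_nonempty A with hA | hA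
  · rw [Nat.card_of_isEmpty]; exact Nat.zero_le _
  let rep : B → A := fun b => if hb : ∃ a, f a = b then hb.choose else Classical.arbitrary A
  have hrep : ∀ a : A, f (rep (f a)) = f a := by
    intro a
    have hb : ∃ a', f a' = f a := ⟨a, rfl⟩
    simp only [rep, dif_pos hb]
    exact hb.choose_spec
  let g : A → K × B := fun a => (⟨ι a - ι (rep (f a)), h a (rep (f a)) (hrep a).symm⟩, f a)
  have hg : Function.Injective g := by
    intro a a' haa
    have h1 : f a = f a' := congrArg Prod.snd haa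
    have h2 : ι a - ι (rep (f a)) = ι a' - ι (rep (f a')) :=
      congrArg (fun p : K × B => (p.1 : G)) haa
    rw [h1] at h2
    exact hι (sub_left_injective h2)
  calc Nat.card A ≤ Nat.card (K × B) := Nat.card_le_card_of_injective g hg
    _ = Nat.card K * Nat.card B := Nat.card_prod _ _

variable (N : ℕ) (S : Finset ℕ)

/-! ### the Eisenstein generators on `HomPar N` -/

/-- `η_r = T_r - (1 + r)` on `HomPar N`. -/
def hGen (r : Nat.Primes) : HomPar N →+ HomPar N :=
  (heckeHom N r).toAddMonoidHom - nsmulAddMonoidHom (1 + (r : ℕ))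

theorem hGen_apply (r : Nat.Primes) (c : HomPar N) :
    hGen N r c = heckeHom N r c - (1 + (r : ℕ)) • c := rfl

/-- the elements of `HomPar N` mapped into `n · HomPar N` by all products of `m` generators. -/
def hKer (n : ℕ) : ℕ → AddSubgroup (HomPar N)
  | 0 => (nsmulAddMonoidHom (α := HomPar N) n).range
  | m + 1 => ⨅ r : OutPrimes S, (hKer n m).comap (hGen N r.1)

theorem mem_hKer_zero {n : ℕ} {c : HomPar N} :
    c ∈ hKer N S n 0 ↔ ∃ c' : HomPar N, c = n • c' := by
  show c ∈ (nsmulAddMonoidHom (α := HomPar N) n).range ↔ _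
  rw [AddMonoidHom.mem_range]
  constructor
  · rintro ⟨c', hc'⟩
    exact ⟨c', hc'.symm⟩
  · rintro ⟨c', hc'⟩
    exact ⟨c', hc'.symm⟩

theorem mem_hKer_succ {n m : ℕ} {c : HomPar N} :
    c ∈ hKer N S n (m + 1) ↔ ∀ r : OutPrimes S, hGen N r.1 c ∈ hKer N S n m := by
  show c ∈ (⨅ r : OutPrimes S, (hKer N S n m).comap (hGen N r.1)) ↔ _
  simp only [AddSubgroup.mem_iInf, AddSubgroup.mem_comap]

variable [NeZero N]

variable {N S}

theorem kap_hGen {n : ℕ} (hn : 0 < n) (r : Nat.Primes) (hr : ¬ (r : ℕ) ∣ N) (c : HomPar N) :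
    kap N n (hGen N r c) = eisGen N r (kap N n c) := by
  rw [hGen_apply, eisGen_apply, kap_sub hn, kap_hecke hn r hr, kap_nsmul hn]

/-- the dictionary for the Eisenstein filtration. -/
theorem kap_mem_eisKer_iff (hNS : ∀ r : Nat.Primes, (r : ℕ) ∉ S → ¬ (r : ℕ) ∣ N) {n : ℕ}
    (hn : 0 < n) (m : ℕ) (c : HomPar N) :
    kap N n c ∈ eisKer N S m ↔ c ∈ hKer N S n m := by
  induction m generalizing c with
  | zero =>
    rw [eisKer_zero, AddSubgroup.mem_bot, kap_eq_zero_iff hn, mem_hKer_zero]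
  | succ m ih =>
    rw [mem_eisKer_succ, mem_hKer_succ]
    refine forall_congr' fun r => ?_
    rw [← kap_hGen hn r.1 (hNS r.1 r.2), ih]

theorem map_mem_hKer {ψ : HomPar N →ₗ[ℤ] HomPar N}
    (hψ : ∀ r : OutPrimes S, ∀ c, ψ (heckeHom N r.1 c) = heckeHom N r.1 (ψ c)) {n : ℕ} (m : ℕ)
    {c : HomPar N} (hc : c ∈ hKer N S n m) : ψ c ∈ hKer N S n m := by
  induction m generalizing c with
  | zero =>
    rw [mem_hKer_zero] at hc ⊢
    obtain ⟨c', rfl⟩ := hc
    exact ⟨ψ c', map_nsmul ψ n c'⟩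
  | succ m ih =>
    rw [mem_hKer_succ] at hc ⊢
    intro r
    have h := ih (hc r)
    rw [hGen_apply, map_sub, map_nsmul, hψ r] at h
    rw [hGen_apply]
    exact h

/-! ### the two eigen-parts -/

variable (N S)

/-- the Eisenstein part of `J₀(N)[n]` on which `c_∞` acts as `+1`. -/
def eisPlus (n : ℕ) : Set (JZero N) :=
  {x | (n • x = 0 ∧ ∃ m : ℕ, x ∈ eisKer N S m) ∧ complexConjugation • x = x}

/-- the Eisenstein part of `J₀(N)[n]` on which `c_∞` acts as `-1`. -/
def eisMinus (n : ℕ) : Set (JZero N) :=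
  {x | (n • x = 0 ∧ ∃ m : ℕ, x ∈ eisKer N S m) ∧ complexConjugation • x = -x}

theorem finite_tors (n : ℕ) (hn : 0 < n) : {x : JZero N | n • x = 0}.Finite :=
  Fermat.Agent.F3TF.torsionFinite N n hn

theorem finite_eisPlus {n : ℕ} (hn : 0 < n) : (eisPlus N S n).Finite :=
  (finite_tors N n hn).subset fun _ hx => hx.1.1

theorem finite_eisMinus {n : ℕ} (hn : 0 < n) : (eisMinus N S n).Finite :=
  (finite_tors N n hn).subset fun _ hx => hx.1.1

variable {N S}

/-- **(CORE)** -/
theorem card_eisMinus_le (hK1 : ThetaConjStatement N) (hPar : ParStatement N)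
    (hSwap : SwapStatement N) (hNS : ∀ r : Nat.Primes, (r : ℕ) ∉ S → ¬ (r : ℕ) ∣ N) :
    ∃ C : ℕ, 0 < C ∧ ∀ n : ℕ, 0 < n →
      Nat.card (eisMinus N S n) ≤ C * Nat.card (eisPlus N S n) := by
  classical
  obtain ⟨ψ, ψ', d, hd, hψ', hψT, hψJ⟩ := hSwap
  obtain ⟨e, he, hsurj⟩ := exists_kap_eq_nsmul N hPar
  have hde : 0 < d * e := Nat.mul_pos hd he
  have hKfin : {x : JZero N | (d * e) • x = 0}.Finite := finite_tors N (d * e) hde
  haveI : Finite {x : JZero N | (d * e) • x = 0} := hKfin.to_subtype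
  haveI : Nonempty {x : JZero N | (d * e) • x = 0} := ⟨⟨0, smul_zero _⟩⟩
  refine ⟨Nat.card {x : JZero N | (d * e) • x = 0}, Nat.card_pos, fun n hn => ?_⟩
  haveI : Finite (eisPlus N S n) := (finite_eisPlus N S hn).to_subtype
  -- the choice of `c_x`
  have hex : ∀ x : eisMinus N S n, ∃ c : HomPar N, kap N n c = e • (x : JZero N) :=
    fun x => hsurj n hn x x.2.1.1
  choose cx hcx using hex
  -- `Φ x = κ (ψ c_x)` lies in the plus part
  have hΦ : ∀ x : eisMinus N S n, kap N n (ψ (cx x)) ∈ eisPlus N S n := by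
    intro x
    obtain ⟨⟨hx0, m, hxm⟩, hxc⟩ := x.2
    refine ⟨⟨nsmul_kap hn _, m, ?_⟩, ?_⟩
    · rw [kap_mem_eisKer_iff hNS hn]
      refine map_mem_hKer (fun r c => hψT r.1 (hNS r.1 r.2) c) m ?_
      rw [← kap_mem_eisKer_iff hNS hn, hcx]
      exact AddSubgroup.nsmul_mem _ hxm e
    · rw [kap_conj hK1 hn, ← hψJ]
      -- `J c_x = c_x` modulo `n`
      have h1 : kap N n (conjHom N (cx x) - cx x) = 0 := by
        have h2 := kap_conj hK1 hn (cx x)
        rw [hcx, gal_smul_nsmul, hxc, kap_neg hn] at h2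
        rw [kap_sub hn, hcx]
        have h3 : kap N n (conjHom N (cx x)) = e • (x : JZero N) := by
          rw [neg_nsmul] at h2
          exact (neg_injective h2).symm
        rw [h3, sub_self]
      obtain ⟨c', hc'⟩ := (kap_eq_zero_iff hn _).1 h1
      have h5 : ψ (conjHom N (cx x)) = ψ (cx x) + n • ψ c' := by
        rw [← map_nsmul, ← map_add, ← hc']
        congr 1
        abel
      rw [h5, kap_add hn, kap_nsmul hn, nsmul_kap hn, add_zero]
  -- the fibres
  have hfib : ∀ x x' : eisMinus N S n,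
      (⟨kap N n (ψ (cx x)), hΦ x⟩ : eisPlus N S n) = ⟨kap N n (ψ (cx x')), hΦ x'⟩ →
      (x : JZero N) - (x' : JZero N) ∈ {x : JZero N | (d * e) • x = 0} := by
    intro x x' hxx
    have h1 : kap N n (ψ (cx x)) = kap N n (ψ (cx x')) := congrArg Subtype.val hxx
    have h2 : kap N n (ψ (cx x - cx x')) = 0 := by
      rw [map_sub, kap_sub hn, h1, sub_self]
    obtain ⟨c', hc'⟩ := (kap_eq_zero_iff hn _).1 h2
    have h3 : d • (cx x - cx x') = n • ψ' c' := by
      rw [← hψ', hc', map_nsmul]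
    have h4 : kap N n (d • (cx x - cx x')) = 0 := by
      rw [h3, kap_nsmul hn, nsmul_kap hn]
    rw [kap_nsmul hn, kap_sub hn, hcx, hcx, ← nsmul_sub, ← mul_nsmul'] at h4
    exact h4
  exact card_le_mul_of_fibre _ hKfin (fun x : eisMinus N S n => (x : JZero N))
    Subtype.coe_injective (fun x => (⟨kap N n (ψ (cx x)), hΦ x⟩ : eisPlus N S n)) hfib

end Fermat.Agent.EDescW
end
end MergeWrap_E_Desc_W_Core
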