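import Mathlib
import Fermat.Prelude.Def_GaloisRep_ComplexConjugation
import Fermat.Agent.MUL.Orig.E.Desc.Defs
import Fermat.Agent.MUL.E.Desc.W.Core
import Fermat.Agent.MUL.E.Desc.RealDefs

section MergeWrap_E_Desc_W_Chain -- from E/Desc/W/Chain.lean

set_option autoImplicit false

noncomputable section

namespace Fermat.Agent.EDescW

open Fermat.Agent.EDesc

local notation "Qb" => AlgebraicClosure ℚ
local notation "GQb" => (AlgebraicClosure ℚ ≃ₐ[ℚ] AlgebraicClosure ℚ)

/-- the complex conjugation inverts the roots of unity. -/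
theorem complexConjugation_root {n : ℕ} (hn : 0 < n) {ζ : Qb} (hζ : ζ ^ n = 1) :
    complexConjugation ζ = ζ⁻¹ := by
  apply (complexEmbedding : Qb →+* ℂ).injective
  have hz : (complexEmbedding ζ) ^ n = 1 := by rw [← map_pow, hζ, map_one]
  have hnorm := Complex.norm_eq_one_of_pow_eq_one hz hn.ne'
  show complexEmbedding (complexConjugation ζ) = complexEmbedding ζ⁻¹
  rw [complexEmbedding_complexConjugation, map_inv₀, Complex.inv_eq_conj hnorm]

section Chain

variable {W : Type*} [AddCommGroup W] [DistribMulAction GQb W] {l' : ℕ}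

/-- the fixed points of the complex conjugation in the step `F i` of the chain. -/
def chainFix (C : TypedChain W l') (i : ℕ) : AddSubgroup W where
  carrier := {w | w ∈ C.F i ∧ complexConjugation • w = w}
  zero_mem' := ⟨zero_mem _, smul_zero _⟩
  add_mem' := fun {a b} ha hb => ⟨add_mem ha.1 hb.1, by rw [smul_add, ha.2, hb.2]⟩
  neg_mem' := fun {a} ha => ⟨neg_mem ha.1, by rw [smul_neg, ha.2]⟩

theorem mem_chainFix (C : TypedChain W l') (i : ℕ) (w : W) :
    w ∈ chainFix C i ↔ w ∈ C.F i ∧ complexConjugation • w = w := Iff.rfl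

theorem chain_card_F (C : TypedChain W l') : ∀ i, i ≤ C.L → Nat.card (C.F i) = l' ^ i := by
  intro i
  induction i with
  | zero => intro _; rw [C.F_zero]; simp
  | succ i ih =>
    intro hi
    have h1 := AddSubgroup.relIndex_mul_relIndex ⊥ (C.F i) (C.F (i + 1)) bot_le (C.mono i)
    rw [AddSubgroup.relIndex_bot_left, AddSubgroup.relIndex_bot_left, ih (by omega),
      C.index i (by omega)] at h1
    rw [← h1, pow_succ]

theorem chain_card (C : TypedChain W l') : Nat.card W = l' ^ C.L := by
  rw [← chain_card_F C C.L le_rfl, C.F_top]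
  exact (Nat.card_congr (Equiv.Set.univ W)).symm

theorem chain_pow_nsmul (C : TypedChain W l') (w : W) : (l' ^ C.L) • w = 0 := by
  rw [← chain_card C]
  exact card_nsmul_eq_zero'

theorem chain_exists_half (hl : l'.Prime) (hl2 : l' ≠ 2) (C : TypedChain W l') :
    ∃ m : ℕ, ∀ w : W, 2 • (m • w) = w := by
  have hodd : Odd (l' ^ C.L) := (hl.odd_of_ne_two hl2).pow
  obtain ⟨k, hk⟩ := hodd
  refine ⟨k + 1, fun w => ?_⟩
  have h0 := chain_pow_nsmul C w
  rw [← mul_nsmul', show 2 * (k + 1) = l' ^ C.L + 1 by omega, add_nsmul, h0, zero_add, one_nsmul]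

theorem chain_ι_zero (C : TypedChain W l') {i : ℕ} (hi : i < C.L) (he : ¬ C.et i) :
    C.ι i 0 = 1 :=
  (C.ι_one_iff i hi he 0 (zero_mem _)).2 (zero_mem _)

theorem chain_ι_nsmul (C : TypedChain W l') {i : ℕ} (hi : i < C.L) (he : ¬ C.et i) {w : W}
    (hw : w ∈ C.F (i + 1)) (n : ℕ) : C.ι i (n • w) = C.ι i w ^ n := by
  induction n with
  | zero => rw [zero_nsmul, pow_zero]; exact chain_ι_zero C hi he
  | succ n ih =>
    rw [succ_nsmul, C.ι_mul i hi he _ _ (nsmul_mem hw n) hw, ih, pow_succ]

/-- on a piece of type `mu` the complex conjugation acts by `-1`. -/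
theorem chain_mu_add_mem (hl : l'.Prime) (C : TypedChain W l') {i : ℕ} (hi : i < C.L)
    (he : ¬ C.et i) {w : W} (hw : w ∈ C.F (i + 1)) : complexConjugation • w + w ∈ C.F i := by
  have hpow : C.ι i w ^ (l' ^ C.L) = 1 := by
    rw [← chain_ι_nsmul C hi he hw, chain_pow_nsmul, chain_ι_zero C hi he]
  have hpos : 0 < l' ^ C.L := pow_pos hl.pos _
  have hne : C.ι i w ≠ 0 := by
    intro h0
    rw [h0, zero_pow hpos.ne'] at hpow
    exact zero_ne_one hpow
  have hcw : complexConjugation • w ∈ C.F (i + 1) := C.stable _ _ _ hw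
  rw [← C.ι_one_iff i hi he _ (add_mem hcw hw), C.ι_mul i hi he _ _ hcw hw,
    C.ι_smul i hi he _ _ hw, complexConjugation_root hpos hpow, inv_mul_cancel₀ hne]

theorem chainFix_succ_mu (hl : l'.Prime) (hl2 : l' ≠ 2) (C : TypedChain W l') {i : ℕ}
    (hi : i < C.L) (he : ¬ C.et i) : chainFix C (i + 1) = chainFix C i := by
  obtain ⟨m, hm⟩ := chain_exists_half hl hl2 C
  apply le_antisymm
  · intro w hw
    refine ⟨?_, hw.2⟩
    have h1 := chain_mu_add_mem hl C hi he hw.1
    rw [hw.2, ← two_nsmul] at h1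
    have h2 : m • (2 • w) ∈ C.F i := nsmul_mem h1 m
    rw [nsmul_left_comm, hm] at h2
    exact h2
  · intro w hw
    exact ⟨C.mono i hw.1, hw.2⟩

theorem chainFix_inf (C : TypedChain W l') (i : ℕ) :
    C.F i ⊓ chainFix C (i + 1) = chainFix C i := by
  ext w
  rw [AddSubgroup.mem_inf, mem_chainFix, mem_chainFix]
  constructor
  · rintro ⟨h1, _, h3⟩; exact ⟨h1, h3⟩
  · rintro ⟨h1, h3⟩; exact ⟨h1, C.mono i h1, h3⟩

theorem chainFix_sup_et (hl : l'.Prime) (hl2 : l' ≠ 2) (C : TypedChain W l') {i : ℕ}
    (hi : i < C.L) (he : C.et i) : chainFix C (i + 1) ⊔ C.F i = C.F (i + 1) := by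
  obtain ⟨m, hm⟩ := chain_exists_half hl hl2 C
  apply le_antisymm
  · exact sup_le (fun w hw => hw.1) (C.mono i)
  · intro w hw
    have hd : complexConjugation • w - w ∈ C.F i := C.et_triv i hi he _ _ hw
    set d := complexConjugation • w - w with hd_def
    set u := m • d with hu_def
    have hu : u ∈ C.F i := nsmul_mem hd m
    have h2u : 2 • u = d := hm d
    have hcc : complexConjugation • (complexConjugation • w) = w := by
      rw [← mul_smul, complexConjugation_mul_self, one_smul]
    have hcd : complexConjugation • d = -d := by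
      rw [hd_def, smul_sub, hcc, neg_sub]
    have hcu : complexConjugation • u = -u := by
      have h := map_nsmul (DistribSMul.toAddMonoidHom W complexConjugation) m d
      rw [DistribSMul.toAddMonoidHom_apply, DistribSMul.toAddMonoidHom_apply] at h
      rw [hu_def, h, hcd, neg_nsmul]
    rw [AddSubgroup.mem_sup]
    refine ⟨w + u, ⟨add_mem hw (C.mono i hu), ?_⟩, -u, neg_mem hu, by abel⟩
    rw [smul_add, hcu]
    have : complexConjugation • w = d + w := by rw [hd_def]; abel
    rw [this, ← h2u, two_nsmul]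
    abel

theorem chainFix_card_succ_et (hl : l'.Prime) (hl2 : l' ≠ 2) (C : TypedChain W l') {i : ℕ}
    (hi : i < C.L) (he : C.et i) :
    Nat.card (chainFix C (i + 1)) = Nat.card (chainFix C i) * l' := by
  have hle : chainFix C i ≤ chainFix C (i + 1) := fun w hw => ⟨C.mono i hw.1, hw.2⟩
  have h1 := AddSubgroup.relIndex_mul_relIndex ⊥ (chainFix C i) (chainFix C (i + 1)) bot_le hle
  rw [AddSubgroup.relIndex_bot_left, AddSubgroup.relIndex_bot_left] at h1
  have h2 : (chainFix C i).relIndex (chainFix C (i + 1)) = l' := by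
    rw [← chainFix_inf C i, AddSubgroup.inf_relIndex_right,
      ← AddSubgroup.relIndex_sup_right (chainFix C (i + 1)) (C.F i), chainFix_sup_et hl hl2 C hi he,
      C.index i hi]
  rw [← h1, h2]

open Classical in
theorem chainFix_card (hl : l'.Prime) (hl2 : l' ≠ 2) (C : TypedChain W l') :
    ∀ i, i ≤ C.L → Nat.card (chainFix C i) = l' ^ ((Finset.range i).filter C.et).card := by
  intro i
  induction i with
  | zero =>
    intro _
    have h0 : chainFix C 0 = ⊥ := by
      rw [eq_bot_iff]
      intro w hw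
      have := hw.1
      rwa [C.F_zero] at this
    rw [h0]
    simp
  | succ i ih =>
    intro hi
    have hi' : i < C.L := by omega
    rw [Finset.range_add_one, Finset.filter_insert]
    by_cases he : C.et i
    · rw [if_pos he, Finset.card_insert_of_notMem (by simp), pow_succ,
        chainFix_card_succ_et hl hl2 C hi' he, ih hi'.le]
    · rw [if_neg he, chainFix_succ_mu hl hl2 C hi' he, ih hi'.le]

end Chain

/-- **W-CHAIN** -/
theorem card_fixed_eq_pow_alpha {W : Type*} [AddCommGroup W] [DistribMulAction GQb W] [Finite W]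
    {l' : ℕ} (hl : l'.Prime) (hl2 : l' ≠ 2) (C : TypedChain W l') :
    Nat.card {w : W // complexConjugation • w = w} = l' ^ C.alpha := by
  have h := chainFix_card hl hl2 C C.L le_rfl
  have he : {w : W // complexConjugation • w = w} ≃ chainFix C C.L :=
    Equiv.subtypeEquivRight fun w => by
      rw [mem_chainFix, C.F_top]
      exact ⟨fun hw => ⟨AddSubgroup.mem_top w, hw⟩, fun hw => hw.2⟩
  rw [Nat.card_congr he, h]
  rfl

end Fermat.Agent.EDescW
end
end MergeWrap_E_Desc_W_Chain

section MergeWrap_E_Desc_W_Main -- from E/Desc/W/Main.lean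

set_option autoImplicit false
set_option linter.style.haveILetI false

noncomputable section

namespace Fermat.Agent.EDescW

open ModularCurve ModularCurve.Period CongruenceSubgroup AlgebraicCurve
open Fermat.Agent.F3I2 Fermat.Agent.F3EC Fermat.Agent.EDesc
open scoped MatrixGroups

local notation "GQb" => (AlgebraicClosure ℚ ≃ₐ[ℚ] AlgebraicClosure ℚ)

variable {N : ℕ} [NeZero N] {l' : ℕ} {S : Finset ℕ} {k : ℕ}

/-- the plus part of `W_k` as a subtype of `W_k`, and as a subset of `J₀(N)`. -/
def plusEquiv : {w : EisW N l' S k // complexConjugation • w = w} ≃ eisPlus N S (l' ^ k) where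
  toFun w := ⟨(w.1 : JZero N), ⟨w.1.2, congrArg Subtype.val w.2⟩⟩
  invFun x := ⟨⟨x.1, x.2.1⟩, Subtype.ext x.2.2⟩
  left_inv _ := rfl
  right_inv _ := rfl

/-- the minus part of `W_k` as a subtype of `W_k`, and as a subset of `J₀(N)`. -/
def minusEquiv : {w : EisW N l' S k // complexConjugation • w = -w} ≃ eisMinus N S (l' ^ k) where
  toFun w := ⟨(w.1 : JZero N), ⟨w.1.2, congrArg Subtype.val w.2⟩⟩
  invFun x := ⟨⟨x.1, x.2.1⟩, Subtype.ext x.2.2⟩
  left_inv _ := rfl
  right_inv _ := rfl

/-- `#W = #W⁺ · #(τ - 1) W`. -/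
theorem card_eq_plus_mul_real [Fact l'.Prime] (τ : GQb) :
    Nat.card (EisW N l' S k) =
      Nat.card {w : EisW N l' S k // τ • w = w} * Nat.card (eisRealSub N τ l' S k) := by
  have h1 := AddSubgroup.card_mul_index (eisTwist N τ l' S k).ker
  rw [AddSubgroup.index_ker] at h1
  rw [← h1]
  congr 1
  refine Nat.card_congr (Equiv.subtypeEquivRight fun w => ?_)
  rw [AddMonoidHom.mem_ker, eisTwist_apply, sub_eq_zero]

/-- `(τ - 1) W ⊆ W⁻` for an involution `τ`. -/
theorem card_real_le_minus [Fact l'.Prime] (τ : GQb) (hτ : τ * τ = 1) :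
    Nat.card (eisRealSub N τ l' S k) ≤ Nat.card {w : EisW N l' S k // τ • w = -w} := by
  refine Nat.card_le_card_of_injective
    (fun r => (⟨(r : EisW N l' S k), ?_⟩ : {w : EisW N l' S k // τ • w = -w})) ?_
  · obtain ⟨w, hw⟩ := r.2
    rw [← hw, eisTwist_apply, smul_sub, ← mul_smul, hτ, one_smul, neg_sub]
  · intro r r' h
    exact Subtype.ext (congrArg (fun w : {w : EisW N l' S k // τ • w = -w} => (w : EisW N l' S k)) h)

/-- the common core of `EisOrd` and `EisReal`. -/
theorem exists_card_bound (hK1 : ThetaConjStatement N) (hPar : ParStatement N)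
    (hSwap : SwapStatement N) (hl : l'.Prime)
    (hNS : ∀ r : Nat.Primes, (r : ℕ) ∉ S → ¬ (r : ℕ) ∣ N) :
    ∃ C : ℕ, 0 < C ∧ ∀ k : ℕ,
      Nat.card {w : EisW N l' S k // complexConjugation • w = -w} ≤
        C * Nat.card {w : EisW N l' S k // complexConjugation • w = w} := by
  obtain ⟨C, hC, h⟩ := card_eisMinus_le (S := S) hK1 hPar hSwap hNS
  refine ⟨C, hC, fun k => ?_⟩
  rw [Nat.card_congr (minusEquiv (N := N) (l' := l') (S := S) (k := k)),
    Nat.card_congr (plusEquiv (N := N) (l' := l') (S := S) (k := k))]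
  exact h (l' ^ k) (pow_pos hl.pos k)

/-- **EisReal** (every prime `l'`, in particular `l' = 2`), from the leaves. -/
theorem eisReal_of (hK1 : ThetaConjStatement N) (hPar : ParStatement N)
    (hSwap : SwapStatement N) (hl : l'.Prime)
    (hNS : ∀ r : Nat.Primes, (r : ℕ) ∉ S → ¬ (r : ℕ) ∣ N) :
    EisReal N complexConjugation l' S := by
  haveI : Fact l'.Prime := ⟨hl⟩
  obtain ⟨C, hC, h⟩ := exists_card_bound (l' := l') (S := S) hK1 hPar hSwap hl hNS
  refine ⟨C, hC, fun k => ?_⟩
  have h1 := card_eq_plus_mul_real (N := N) (l' := l') (S := S) (k := k) complexConjugation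
  have h2 := card_real_le_minus (N := N) (l' := l') (S := S) (k := k) complexConjugation
    complexConjugation_mul_self
  have h3 := h k
  calc Nat.card (eisRealSub N complexConjugation l' S k) ^ 2
      = Nat.card (eisRealSub N complexConjugation l' S k) *
          Nat.card (eisRealSub N complexConjugation l' S k) := sq _
    _ ≤ (C * Nat.card {w : EisW N l' S k // complexConjugation • w = w}) *
          Nat.card (eisRealSub N complexConjugation l' S k) :=
        Nat.mul_le_mul_right _ (h2.trans h3)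
    _ = C * Nat.card (EisW N l' S k) := by rw [h1, mul_assoc]

/-- **EisOrd** (odd `l'`), from the leaves. -/
theorem eisOrd_of (hK1 : ThetaConjStatement N) (hPar : ParStatement N)
    (hSwap : SwapStatement N) (hl : l'.Prime) (hl2 : l' ≠ 2)
    (hNS : ∀ r : Nat.Primes, (r : ℕ) ∉ S → ¬ (r : ℕ) ∣ N) :
    EisOrd N l' S := by
  haveI : Fact l'.Prime := ⟨hl⟩
  obtain ⟨C, hC, h⟩ := exists_card_bound (l' := l') (S := S) hK1 hPar hSwap hl hNS
  refine ⟨C, hC, fun k Ch => ?_⟩
  have h1 := card_eq_plus_mul_real (N := N) (l' := l') (S := S) (k := k) complexConjugation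
  have h2 := card_real_le_minus (N := N) (l' := l') (S := S) (k := k) complexConjugation
    complexConjugation_mul_self
  have h3 := h k
  have h4 := card_fixed_eq_pow_alpha hl hl2 Ch
  rw [h1]
  calc Nat.card {w : EisW N l' S k // complexConjugation • w = w} *
        Nat.card (eisRealSub N complexConjugation l' S k)
      ≤ Nat.card {w : EisW N l' S k // complexConjugation • w = w} *
          (C * Nat.card {w : EisW N l' S k // complexConjugation • w = w}) :=
        Nat.mul_le_mul_left _ (h2.trans h3)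
    _ = C * l' ^ (2 * Ch.alpha) := by rw [h4, pow_mul']; ring

end Fermat.Agent.EDescW
end
end MergeWrap_E_Desc_W_Main
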