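import Mathlib
import Fermat.Agent.MUL.E.Desc.W.Basic
import Fermat.Agent.MUL.F3.I2.Kappa.Exists
import Fermat.Agent.MUL.F3.Dict.ChartsC
import Fermat.Agent.MUL.F3.Dict.RatioCuspFinal
import Fermat.Agent.MUL.Orig.F3.I2.LocalOrders
import Fermat.Agent.MUL.E.Desc.W.Main
import Fermat.Agent.MUL.E.Desc.W.ThetaConj
import Fermat.Agent.MUL.Lib.BadRed.Graph.Deuring.PermDef

section MergeWrap_E_Desc_W_ParGlue -- from E/Desc/W/ParGlue.lean

set_option autoImplicit false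

noncomputable section

namespace Fermat.Agent.EDescW

open UpperHalfPlane CongruenceSubgroup ModularForm ModularCurve AlgebraicCurve
open Fermat.Agent.F3I2 Fermat.Agent.F3EC
open scoped MatrixGroups ModularForm Manifold

/-- PAR-a. -/
def ParGroupStatement : Prop :=
  ∀ γ : SL(2, ℤ), (γ : Matrix (Fin 2) (Fin 2) ℤ).trace ^ 2 = 4 →
    ∃ (g : SL(2, ℤ)) (m : ℤ),
      γ = g * ModularGroup.T ^ m * g⁻¹ ∨ γ = -(g * ModularGroup.T ^ m * g⁻¹)

/-- PAR-b. -/
def ParPlaceStatement (N : ℕ) [NeZero N] : Prop :=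
  ∀ g : SL(2, ℤ), ∃ (v : Place ℂ (FC N)) (h e : ℕ), 0 < h ∧ 0 < e ∧ h * e = 2 * N ∧
    (∀ k : ℤ, g * ModularGroup.T ^ k * g⁻¹ ∈ Gamma0 N ↔ (h : ℤ) ∣ k) ∧
    ∀ (w : ℤ) (A B : ModularForm (Gamma0 N) w) (x : FC N), A ≠ 0 → IsRatio N x A B →
      (e : ℤ) * v.ord x = ordInf (2 * N) (⇑A ∣[w] g) - ordInf (2 * N) (⇑B ∣[w] g)

/-- PAR-c. -/
def ParAnStatement : Prop :=
  ∀ (h n : ℕ), 0 < h → 0 < n → ∀ (F : ℍ → ℂ), MDiff F → IsBoundedAtImInfty F → F ≠ 0 →
    ∀ ζ : ℂ, ζ ^ n = 1 → (∀ z : ℍ, F ((h : ℝ) +ᵥ z) = ζ * F z) →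
      (n : ℤ) ∣ ordInf h (F ^ n) → ζ = 1

/-- `-1 ∈ Γ₀(N)`. -/
theorem par_neg_one_mem_Gamma0 (N : ℕ) : (-1 : SL(2, ℤ)) ∈ Gamma0 N := by
  rw [Gamma0_mem]
  simp

/-- slash by `-1` is multiplication by a constant depending only on the weight. -/
theorem par_slash_neg_one_apply (F : ℍ → ℂ) (w : ℤ) (z : ℍ) :
    (F ∣[w] (-1 : SL(2, ℤ))) z = F z * ((-1 : ℂ) ^ (-w)) := by
  rw [SL_slash_apply]
  have h1 : (-1 : SL(2, ℤ)) • z = z := by
    rw [ModularGroup.SL_neg_smul, one_smul]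
  have h2 : denom ((-1 : SL(2, ℤ))) z = -1 := by
    rw [ModularGroup.denom_apply]
    simp
  rw [h1, h2]

variable {N : ℕ}

/-- the character of a form is trivial at `-1` as soon as a nonzero form of the same weight
with trivial character exists. -/
theorem par_char_neg_one_eq_one {w : ℤ} {χ : ↥(Gamma0 N) →* ℂˣ} {f B : ℍ → ℂ}
    (hf : IsFormChar N w χ f) (hB : IsFormChar N w 1 B) (hf0 : f ≠ 0) (hB0 : B ≠ 0) :
    χ ⟨-1, par_neg_one_mem_Gamma0 N⟩ = 1 := by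
  obtain ⟨z, hz⟩ : ∃ z, B z ≠ 0 := by
    by_contra hcon
    push Not at hcon
    exact hB0 (funext hcon)
  obtain ⟨z', hz'⟩ : ∃ z, f z ≠ 0 := by
    by_contra hcon
    push Not at hcon
    exact hf0 (funext hcon)
  have h1 := congrFun (hB.slash ⟨-1, par_neg_one_mem_Gamma0 N⟩) z
  rw [par_slash_neg_one_apply] at h1
  simp only [MonoidHom.one_apply, Units.val_one, one_smul] at h1
  have hc : ((-1 : ℂ) ^ (-w)) = 1 := by
    have h2 : B z * ((-1 : ℂ) ^ (-w)) = B z * 1 := by rw [h1, mul_one]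
    exact mul_left_cancel₀ hz h2
  have h3 := congrFun (hf.slash ⟨-1, par_neg_one_mem_Gamma0 N⟩) z'
  rw [par_slash_neg_one_apply, hc, mul_one] at h3
  simp only [Pi.smul_apply, smul_eq_mul] at h3
  have h4 : ((χ ⟨-1, par_neg_one_mem_Gamma0 N⟩ : ℂˣ) : ℂ) = 1 := by
    have h5 : ((χ ⟨-1, par_neg_one_mem_Gamma0 N⟩ : ℂˣ) : ℂ) * f z' = 1 * f z' := by
      rw [← h3, one_mul]
    exact mul_right_cancel₀ hz' h5
  exact Units.ext h4

/-- the twisted period of `f ∣ g` along the cusp `g ∞`. -/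
theorem par_slash_vadd_of_char {w : ℤ} {χ : ↥(Gamma0 N) →* ℂˣ} {f : ℍ → ℂ}
    (hf : IsFormChar N w χ f) (g : SL(2, ℤ)) (h : ℕ)
    (hmem : g * ModularGroup.T ^ h * g⁻¹ ∈ Gamma0 N) (z : ℍ) :
    (f ∣[w] g) ((h : ℝ) +ᵥ z) = ((χ ⟨_, hmem⟩ : ℂˣ) : ℂ) * (f ∣[w] g) z := by
  rw [← slash_T_pow_apply (f ∣[w] g) w h z]
  have key : (f ∣[w] g) ∣[w] (ModularGroup.T ^ h) =
      (f ∣[w] (g * ModularGroup.T ^ h * g⁻¹)) ∣[w] g := by
    rw [← SlashAction.slash_mul, ← SlashAction.slash_mul]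
    congr 1
    group
  rw [key, hf.slash ⟨_, hmem⟩]
  rw [SL_slash_apply, SL_slash_apply]
  simp only [Pi.smul_apply, smul_eq_mul]
  ring

variable [NeZero N]

/-- **the divisibility at the cusp `g ∞`.** -/
theorem dvd_ordInf_of_isTheta_data (hB : ParPlaceStatement N) {n : ℕ} {w : ℤ}
    {χ : ↥(Gamma0 N) →* ℂˣ} {f B : ℍ → ℂ}
    (hf : IsFormChar N w χ f) (hBf : IsFormChar N w 1 B) (hf0 : f ≠ 0) (hB0 : B ≠ 0)
    (hχn : ∀ γ, χ γ ^ n = 1) {x : FC N} (hx : IsRatioF N x (f ^ n) (B ^ n))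
    {D : Divisor.degZero (K := ℂ) (F := FC N)} (hD : IsRootDiv n x D) (g : SL(2, ℤ)) :
    ∃ h : ℕ, 0 < h ∧ (∀ k : ℤ, g * ModularGroup.T ^ k * g⁻¹ ∈ Gamma0 N ↔ (h : ℤ) ∣ k) ∧
      (n : ℤ) ∣ ordInf h ((f ∣[w] g) ^ n) := by
  obtain ⟨v, h, e, hh, he, hhe, hwidth, hord⟩ := hB g
  refine ⟨h, hh, hwidth, ?_⟩
  have hmem : g * ModularGroup.T ^ h * g⁻¹ ∈ Gamma0 N := by
    have := (hwidth (h : ℤ)).2 dvd_rfl
    rwa [zpow_natCast] at this
  obtain ⟨A, B', hA, hB', hA0, hAB⟩ := exists_isRatio_pow hf hBf hf0 hB0 hχn hx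
  have h1 := hord _ A B' x hA0 hAB
  rw [hA, hB', pow_slash_SL2, pow_slash_SL2, ← hhe] at h1
  -- the two functions at the cusp
  set F : ℍ → ℂ := f ∣[w] g with hF
  set G : ℍ → ℂ := B ∣[w] g with hG
  have hFm : MDiff F := mdiff_slash_SL hf.mdiff w g
  have hGm : MDiff G := mdiff_slash_SL hBf.mdiff w g
  have hFb : IsBoundedAtImInfty F := hf.bdd g
  have hGb : IsBoundedAtImInfty G := hBf.bdd g
  have hF0 : F ≠ 0 := slash_SL_ne_zero hf0 w g
  have hG0 : G ≠ 0 := slash_SL_ne_zero hB0 w g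
  have hGp : HasPeriod h G := by
    intro z
    have := par_slash_vadd_of_char hBf g h hmem z
    simpa using this
  have hFnp : HasPeriod h (F ^ n) := by
    intro z
    have h2 : F ((h : ℝ) +ᵥ z) = ((χ ⟨_, hmem⟩ : ℂˣ) : ℂ) * F z :=
      par_slash_vadd_of_char hf g h hmem z
    have h3 : ((χ ⟨_, hmem⟩ : ℂˣ) : ℂ) ^ n = 1 := by
      have := congrArg Units.val (hχn ⟨_, hmem⟩)
      simpa using this
    simp only [Pi.pow_apply]
    rw [h2, mul_pow, h3, one_mul]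
  have hFn0 : F ^ n ≠ 0 := pow_ne_zero_fun hF0 n
  have hGn0 : G ^ n ≠ 0 := pow_ne_zero_fun hG0 n
  rw [ordInf_mul_period hh he (hFm.pow n) hFnp (lo_bounded_pow hFb n) hFn0,
    ordInf_mul_period hh he (hGm.pow n) (lo_hasPeriod_pow hGp n) (lo_bounded_pow hGb n) hGn0,
    ordInf_pow hh hGm hGp hGb hG0, ← mul_sub] at h1
  have he' : (e : ℤ) ≠ 0 := by exact_mod_cast he.ne'
  have h2 : v.ord x = ordInf h (F ^ n) - (n : ℤ) * ordInf h G := mul_left_cancel₀ he' h1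
  have h3 := hD.2 v
  refine ⟨(D : Divisor ℂ (FC N)) v + ordInf h G, ?_⟩
  rw [mul_add, h3, h2]
  ring

/-- **W-PAR from the three interfaces.** -/
theorem isTheta_parabolic_of (hA : ParGroupStatement) (hB : ParPlaceStatement N)
    (hC : ParAnStatement) {n : ℕ} (hn : n ≠ 0) {χ : ↥(Gamma0 N) →* ℂˣ}
    {c : Pic0 ℂ (FC N)} (h : IsTheta N n χ c) {γ : ↥(Gamma0 N)} (hγ : IsPar γ) : χ γ = 1 := by
  obtain ⟨hχn, w, f, B, x, D, hf, hBf, hf0, hB0, hx, hD, -⟩ := h
  have hneg := par_char_neg_one_eq_one hf hBf hf0 hB0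
  obtain ⟨g, m, hgm⟩ := hA (γ : SL(2, ℤ)) hγ
  obtain ⟨h, hh, hwidth, hdvd⟩ := dvd_ordInf_of_isTheta_data hB hf hBf hf0 hB0 hχn hx hD g
  have hmemh : g * ModularGroup.T ^ h * g⁻¹ ∈ Gamma0 N := by
    have := (hwidth (h : ℤ)).2 dvd_rfl
    rwa [zpow_natCast] at this
  -- the generator of the stabiliser of the cusp has trivial character
  have hone : χ ⟨_, hmemh⟩ = 1 := by
    apply Units.ext
    refine hC h n hh (Nat.pos_of_ne_zero hn) (f ∣[w] g) (mdiff_slash_SL hf.mdiff w g) (hf.bdd g)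
      (slash_SL_ne_zero hf0 w g) _ ?_ (fun z => par_slash_vadd_of_char hf g h hmemh z) hdvd
    have := congrArg Units.val (hχn ⟨_, hmemh⟩)
    simpa using this
  -- `g T^m g⁻¹ ∈ Γ₀(N)` and its character is trivial
  have hmem' : g * ModularGroup.T ^ m * g⁻¹ ∈ Gamma0 N := by
    rcases hgm with h1 | h1
    · rw [← h1]; exact γ.2
    · have h2 : g * ModularGroup.T ^ m * g⁻¹ = (-1 : SL(2, ℤ)) * (γ : SL(2, ℤ)) := by
        rw [h1]; simp
      rw [h2]
      exact (Gamma0 N).mul_mem (par_neg_one_mem_Gamma0 N) γ.2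
  obtain ⟨k, hk⟩ := (hwidth m).1 hmem'
  have hpow : (⟨_, hmem'⟩ : ↥(Gamma0 N)) = (⟨_, hmemh⟩ : ↥(Gamma0 N)) ^ k := by
    apply Subtype.ext
    rw [Subgroup.coe_zpow]
    show g * ModularGroup.T ^ m * g⁻¹ = (g * ModularGroup.T ^ h * g⁻¹) ^ k
    rw [conj_zpow, hk, zpow_mul, zpow_natCast]
  have hone' : χ ⟨_, hmem'⟩ = 1 := by
    rw [hpow, map_zpow, hone, one_zpow]
  rcases hgm with h1 | h1
  · have : γ = ⟨_, hmem'⟩ := Subtype.ext h1
    rw [this, hone']
  · have : γ = (⟨-1, par_neg_one_mem_Gamma0 N⟩ : ↥(Gamma0 N)) * ⟨_, hmem'⟩ := by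
      apply Subtype.ext
      rw [Subgroup.coe_mul]
      show (γ : SL(2, ℤ)) = -1 * (g * ModularGroup.T ^ m * g⁻¹)
      rw [h1]; simp
    rw [this, map_mul, hneg, hone', one_mul]

end Fermat.Agent.EDescW
end
end MergeWrap_E_Desc_W_ParGlue

section MergeWrap_E_Desc_W_ParGroup -- from E/Desc/W/ParGroup.lean

set_option autoImplicit false

namespace Fermat.Agent.EDescW

open Matrix
open scoped MatrixGroups

/-- a primitive fixed vector of a non-trivial element of trace `2`. -/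
theorem par_exists_fixed_vec (γ : SL(2, ℤ))
    (h : (γ : Matrix (Fin 2) (Fin 2) ℤ).trace = 2) :
    ∃ a c : ℤ, IsCoprime a c ∧ γ 0 0 * a + γ 0 1 * c = a ∧ γ 1 0 * a + γ 1 1 * c = c := by
  have hdet : γ 0 0 * γ 1 1 - γ 0 1 * γ 1 0 = 1 := by
    have := γ.2
    rwa [Matrix.det_fin_two] at this
  have htr : γ 0 0 + γ 1 1 = 2 := by
    rwa [Matrix.trace_fin_two] at h
  by_cases hq : γ 0 1 = 0 ∧ γ 0 0 = 1
  · refine ⟨0, 1, isCoprime_zero_left.2 isUnit_one, ?_, ?_⟩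
    · rw [hq.1]; ring
    · have : γ 1 1 = 1 := by linarith [hq.2]
      rw [this]; ring
  · have hpos : 0 < Int.gcd (γ 0 1) (1 - γ 0 0) := by
      rw [Int.gcd_pos_iff]
      by_contra hcon
      push Not at hcon
      exact hq ⟨hcon.1, by linarith [hcon.2]⟩
    obtain ⟨a, c, hac, ha, hc⟩ := Int.exists_gcd_one hpos
    set d : ℤ := (Int.gcd (γ 0 1) (1 - γ 0 0) : ℤ) with hd
    have hd0 : d ≠ 0 := by
      rw [hd]
      exact_mod_cast hpos.ne'
    have ha' : a * d = γ 0 1 := ha.symm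
    have hc' : c * d = 1 - γ 0 0 := hc.symm
    refine ⟨a, c, Int.isCoprime_iff_gcd_eq_one.2 hac, ?_, ?_⟩
    · apply mul_left_cancel₀ hd0
      calc d * (γ 0 0 * a + γ 0 1 * c) = γ 0 0 * (a * d) + γ 0 1 * (c * d) := by ring
        _ = γ 0 0 * γ 0 1 + γ 0 1 * (1 - γ 0 0) := by rw [ha', hc']
        _ = γ 0 1 := by ring
        _ = d * a := by rw [← ha']; ring
    · apply mul_left_cancel₀ hd0
      calc d * (γ 1 0 * a + γ 1 1 * c) = γ 1 0 * (a * d) + γ 1 1 * (c * d) := by ring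
        _ = γ 1 0 * γ 0 1 + γ 1 1 * (1 - γ 0 0) := by rw [ha', hc']
        _ = 1 - γ 0 0 := by linear_combination (-1 : ℤ) * hdet + htr
        _ = d * c := by rw [← hc']; ring

/-- **PAR-a**, trace `2`. -/
theorem exists_conj_T_zpow_of_trace_two (γ : SL(2, ℤ))
    (h : (γ : Matrix (Fin 2) (Fin 2) ℤ).trace = 2) :
    ∃ (g : SL(2, ℤ)) (m : ℤ), γ = g * ModularGroup.T ^ m * g⁻¹ := by
  obtain ⟨a, c, hco, h1, h2⟩ := par_exists_fixed_vec γ h
  obtain ⟨u, v, huv⟩ := hco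
  have hdetg : (!![a, -v; c, u] : Matrix (Fin 2) (Fin 2) ℤ).det = 1 := by
    rw [Matrix.det_fin_two_of]
    linarith
  set g : SL(2, ℤ) := ⟨!![a, -v; c, u], hdetg⟩ with hg
  set M : SL(2, ℤ) := g⁻¹ * γ * g with hM
  have hMcoe : (M : Matrix (Fin 2) (Fin 2) ℤ) =
      !![u, v; -c, a] * (γ : Matrix (Fin 2) (Fin 2) ℤ) * !![a, -v; c, u] := by
    rw [hM, Matrix.SpecialLinearGroup.coe_mul, Matrix.SpecialLinearGroup.coe_mul,
      Matrix.SpecialLinearGroup.coe_inv, hg]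
    simp [Matrix.adjugate_fin_two_of]
  have hM00 : (M : Matrix (Fin 2) (Fin 2) ℤ) 0 0 = 1 := by
    rw [hMcoe]
    simp only [Matrix.mul_apply, Fin.sum_univ_two, Matrix.of_apply,
      Matrix.cons_val_zero, Matrix.cons_val_one, Matrix.cons_val', Matrix.cons_val_fin_one]
    linear_combination u * h1 + v * h2 + huv
  have hM10 : (M : Matrix (Fin 2) (Fin 2) ℤ) 1 0 = 0 := by
    rw [hMcoe]
    simp only [Matrix.mul_apply, Fin.sum_univ_two, Matrix.of_apply,
      Matrix.cons_val_zero, Matrix.cons_val_one, Matrix.cons_val', Matrix.cons_val_fin_one]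
    linear_combination (-c) * h1 + a * h2
  have hM11 : (M : Matrix (Fin 2) (Fin 2) ℤ) 1 1 = 1 := by
    have := M.2
    rw [Matrix.det_fin_two, hM00, hM10] at this
    linarith
  have hMT : M = ModularGroup.T ^ ((M : Matrix (Fin 2) (Fin 2) ℤ) 0 1) := by
    apply Subtype.ext
    rw [ModularGroup.coe_T_zpow]
    ext i j
    fin_cases i <;> fin_cases j
    · simpa using hM00
    · simp
    · simpa using hM10
    · simpa using hM11
  refine ⟨g, (M : Matrix (Fin 2) (Fin 2) ℤ) 0 1, ?_⟩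
  rw [← hMT, hM]
  group

/-- **PAR-a**: every element of `SL(2, ℤ)` of trace `± 2` is `± g T^m g⁻¹`. -/
theorem exists_conj_T_zpow (γ : SL(2, ℤ))
    (h : (γ : Matrix (Fin 2) (Fin 2) ℤ).trace ^ 2 = 4) :
    ∃ (g : SL(2, ℤ)) (m : ℤ),
      γ = g * ModularGroup.T ^ m * g⁻¹ ∨ γ = -(g * ModularGroup.T ^ m * g⁻¹) := by
  have h2 : (γ : Matrix (Fin 2) (Fin 2) ℤ).trace = 2 ∨
      (γ : Matrix (Fin 2) (Fin 2) ℤ).trace = -2 := by
    have h3 : ((γ : Matrix (Fin 2) (Fin 2) ℤ).trace - 2) *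
        ((γ : Matrix (Fin 2) (Fin 2) ℤ).trace + 2) = 0 := by linear_combination h
    rcases mul_eq_zero.1 h3 with h4 | h4
    · left; linarith
    · right; linarith
  rcases h2 with h2 | h2
  · obtain ⟨g, m, hgm⟩ := exists_conj_T_zpow_of_trace_two γ h2
    exact ⟨g, m, Or.inl hgm⟩
  · have h3 : ((-γ : SL(2, ℤ)) : Matrix (Fin 2) (Fin 2) ℤ).trace = 2 := by
      rw [Matrix.SpecialLinearGroup.coe_neg, Matrix.trace_neg, h2]
      norm_num
    obtain ⟨g, m, hgm⟩ := exists_conj_T_zpow_of_trace_two (-γ) h3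
    refine ⟨g, m, Or.inr ?_⟩
    rw [← hgm, neg_neg]

end Fermat.Agent.EDescW
end MergeWrap_E_Desc_W_ParGroup

section MergeWrap_E_Desc_W_ParPlace -- from E/Desc/W/ParPlace.lean

set_option autoImplicit false
set_option linter.style.haveILetI false
set_option linter.unusedSectionVars false

noncomputable section

namespace Fermat.Agent.EDescW

open UpperHalfPlane CongruenceSubgroup AlgebraicCurve
open scoped MatrixGroups ModularForm
open Fermat.Agent.F3I2 Fermat.Agent.F3Dict Fermat.Agent.F3Places Fermat.Agent.F3Charts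

open Classical in
/-- the EXACT width: `{k | γ⁻¹ g^k γ ∈ H} = h ℤ` and `h * #{k < s | γ⁻¹ g^k γ ∈ H} = s`. -/
theorem par_exists_width {Γ : Type*} [Group Γ] (H : Subgroup Γ) (g γ : Γ) (s : ℕ) (hs : 0 < s)
    (hgs : γ⁻¹ * g ^ s * γ ∈ H) :
    ∃ h : ℕ, 0 < h ∧
      h * ((Finset.range s).filter (fun k => γ⁻¹ * g ^ k * γ ∈ H)).card = s ∧
      ∀ k : ℤ, γ⁻¹ * g ^ k * γ ∈ H ↔ (h : ℤ) ∣ k := by
  obtain ⟨a, ha⟩ := Int.subgroup_cyclic (conjPowSubgroup H g γ)
  have hmem : ∀ k : ℤ, γ⁻¹ * g ^ k * γ ∈ H ↔ a ∣ k := by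
    intro k
    rw [← mem_conjPowSubgroup, ha, ← AddSubgroup.zmultiples_eq_closure,
      Int.mem_zmultiples_iff]
  have hsa : a ∣ (s : ℤ) := by
    rw [← hmem]
    simpa using hgs
  have ha0 : a ≠ 0 := by
    rintro rfl
    have := zero_dvd_iff.mp hsa
    omega
  refine ⟨a.natAbs, Int.natAbs_pos.mpr ha0, ?_, ?_⟩
  · have hdvd : a.natAbs ∣ s := Int.natAbs_dvd_natAbs.mpr hsa
    obtain ⟨m, rfl⟩ := hdvd
    have hfil : (Finset.range (a.natAbs * m)).filter (fun k => γ⁻¹ * g ^ k * γ ∈ H) =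
        (Finset.range (a.natAbs * m)).filter (fun k => a.natAbs ∣ k) := by
      refine Finset.filter_congr fun k _ => ?_
      have := hmem (k : ℤ)
      rw [zpow_natCast] at this
      rw [this, Int.dvd_natCast]
    rw [hfil, card_filter_dvd_range _ _ (Int.natAbs_pos.mpr ha0)]
  · intro k
    rw [hmem k, Int.natAbs_dvd]

section abstract

variable {K F L Γ : Type*} [Field K] [IsAlgClosed K] [CharZero K]
    [Field F] [Algebra K F] [Field L] [Algebra K L]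
    [Group Γ] [MulSemiringAction Γ L] [SMulCommClass Γ K L]

/-- one fibre, points → places, with the EXACT width. -/
theorem par_exists_place_of_point (φ : F →ₐ[K] L)
    (t : F) (httr : Transcendental K t)
    (hfin : ∃ Γ' : Subgroup Γ, Γ'.FiniteIndex ∧ ∀ g ∈ Γ', ∀ x : L, g • x = x)
    (ht : ∀ g : Γ, g • φ t = φ t)
    (hfix : ∀ x : L, (∀ g : Γ, g • x = x) → x ∈ IntermediateField.adjoin K {φ t})
    (H : Subgroup Γ) (hH : ∀ g : Γ, g ∈ H ↔ ∀ x : F, g • φ x = φ x)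
    (w : Valuation L (WithZero (Multiplicative ℤ))) (s : ℕ) (g : Γ)
    (hwK : ∀ a : K, a ≠ 0 → w (algebraMap K L a) = 1)
    (hs : 0 < s)
    (hw : w (φ t) = WithZero.exp (-(s : ℤ)))
    (hg : ∀ x, w (g • x) = w x)
    (hgs : ∀ k : ℤ, (∀ x : L, (g ^ k) • x = x) ↔ (s : ℤ) ∣ k)
    (γ : Γ) :
    ∃ (v : Place K F) (e h : ℕ), 0 < v.ord t ∧ 0 < e ∧ 0 < h ∧ h * e = s ∧
      (∀ k : ℤ, γ⁻¹ * g ^ k * γ ∈ H ↔ (h : ℤ) ∣ k) ∧
      ∀ x : F, x ≠ 0 → -WithZero.log (w (γ • φ x)) = (e : ℤ) * v.ord x := by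
  classical
  letI : Algebra F L := φ.toRingHom.toAlgebra
  haveI : IsScalarTower K F L := IsScalarTower.of_algebraMap_eq (fun a => (φ.commutes a).symm)
  have hmap : ∀ x : F, algebraMap F L x = φ x := fun _ => rfl
  obtain ⟨v, e, hv, he, hve⟩ :=
    exists_place_ord_eq_of_smul t httr hfin ht hfix w s hwK hs hw γ
  have hcard := ramification_eq_card t httr hfin ht hfix H hH w s g hwK hs hw hg hgs v γ e hve
  have hgsH : γ⁻¹ * g ^ s * γ ∈ H := by
    rw [hH]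
    intro x
    have h1 : ∀ y : L, (g ^ s) • y = y := by
      have := (hgs (s : ℤ)).mpr dvd_rfl
      simpa using this
    rw [mul_smul, mul_smul, h1, inv_smul_smul]
  obtain ⟨h, hh, hhe, hmem⟩ := par_exists_width H g γ s hs hgsH
  rw [← hcard] at hhe
  exact ⟨v, e, h, hv, he, hh, hhe, hmem, hve⟩

end abstract

set_option maxHeartbeats 2000000 in
set_option synthInstance.maxHeartbeats 400000 in
/-- **PAR-b**: the place of `FC N` at the cusp `g ∞`: exact width `h`, index `e`, `h e = 2N`, and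
the order of a ratio of forms. -/
theorem exists_cusp_place (N : ℕ) [NeZero N] (g : SL(2, ℤ)) :
    ∃ (v : Place ℂ (F3I2.FC N)) (h e : ℕ), 0 < h ∧ 0 < e ∧ h * e = 2 * N ∧
      (∀ k : ℤ, g * ModularGroup.T ^ k * g⁻¹ ∈ Gamma0 N ↔ (h : ℤ) ∣ k) ∧
      ∀ (w : ℤ) (A B : ModularForm (Gamma0 N) w) (x : F3I2.FC N), A ≠ 0 → IsRatio N x A B →
        (e : ℤ) * v.ord x = ordInf (2 * N) (⇑A ∣[w] g) - ordInf (2 * N) (⇑B ∣[w] g) := by
  haveI : NeZero (2 * N) := ⟨Nat.mul_ne_zero two_ne_zero (NeZero.ne N)⟩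
  have hM0 : 0 < 2 * N := by
    have := Nat.pos_of_ne_zero (NeZero.ne N)
    omega
  obtain ⟨ht1, ht2, ht3, ht4⟩ := fibre_hyps_inv (phiC N) (jBar N) (jLL (2 * N)) (phiC_jBar N)
    (transcendental_jBar_aux N) (smul_jLL (2 * N))
    (Fermat.Agent.F3DictInv.mem_adjoin_jLL_of_invariant' (2 * N))
  obtain ⟨v, e, h, -, he, hh, hhe, hmem, hve⟩ := par_exists_place_of_point (phiC N)
    (jBar N)⁻¹ ht1 (exists_finiteIndex_fixing (2 * N)) ht2 ht3
    (Gamma0 N) (mem_Gamma0_iff_phiC N) (winfC (2 * N)) (2 * N) ModularGroup.T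
    (fun a ha => winfC_algebraMap (2 * N) ha) hM0
    (by rw [ht4, map_inv₀, winfC_jLL, ← WithZero.exp_neg])
    (fun x => winfC_T_smul (2 * N) x) (T_zpow_smul_eq_iff (2 * N)) g⁻¹
  refine ⟨v, h, e, hh, he, hhe, ?_, ?_⟩
  · intro k
    have := hmem k
    rwa [inv_inv] at this
  · intro w A B x hA hr
    have hx0 := ne_zero_of_isRatio N A B x hA hr
    rw [← hve x hx0]
    have h1 := Fermat.Agent.F3RatioCusp.ratioCusp_charts N g⁻¹ w A B x hA hr
    rw [inv_inv] at h1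
    exact h1

end Fermat.Agent.EDescW
end
end MergeWrap_E_Desc_W_ParPlace

section MergeWrap_E_Desc_W_ParAn -- from E/Desc/W/ParAn.lean

/-!
# Cluster E' (descent), leaf W-PAR, part PAR-c (helper17): analysis at `i∞`

If `F` is holomorphic on `ℍ`, bounded at `i∞`, nonzero, `F (z + h) = ζ F z` with `ζ ^ n = 1`, and
`n ∣ ord_{q_h} (F ^ n)`, then `ζ = 1`.

Proof: `ζ = exp (2πi a / n)`, `0 ≤ a < n`; if `a ≠ 0` put `b = n - a` and
`E z = exp (2πi b z / (n h)) F z`: holomorphic, bounded, `h`-periodic, and `E ^ n = q_h ^ b F ^ n`,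
so `n ord E = b + ord (F ^ n)` and `n ∣ b`, absurd.
-/

set_option autoImplicit false
set_option linter.unusedSectionVars false
set_option linter.unusedVariables false

noncomputable section

namespace Fermat.Agent.EDescW

open UpperHalfPlane hiding I
open Filter Topology Complex Function
open scoped Manifold Real
open Fermat.Agent.F3I2

/-- `z ↦ exp (2πi t z)` on `ℍ`, for real `t`. -/
def parExp (t : ℝ) : ℍ → ℂ := fun z => Complex.exp (2 * π * I * t * z)

theorem parExp_apply (t : ℝ) (z : ℍ) : parExp t z = Complex.exp (2 * π * I * t * z) := rfl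

theorem parExp_mdiff (t : ℝ) : MDiff (parExp t) := by
  rw [UpperHalfPlane.mdifferentiable_iff]
  have : DifferentiableOn ℂ (fun z : ℂ => Complex.exp (2 * π * I * t * z)) {z | 0 < z.im} :=
    (differentiable_exp.comp (differentiable_id.const_mul _)).differentiableOn
  refine this.congr fun z hz => ?_
  simp [Function.comp, ofComplex_apply_of_im_pos hz, parExp]

theorem parExp_ne_zero (t : ℝ) (z : ℍ) : parExp t z ≠ 0 := Complex.exp_ne_zero _

theorem parExp_ne_zero' (t : ℝ) : parExp t ≠ 0 := by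
  intro h
  have := congrFun h UpperHalfPlane.I
  exact parExp_ne_zero t _ this

theorem parExp_norm (t : ℝ) (z : ℍ) : ‖parExp t z‖ = Real.exp (-(2 * π * t * z.im)) := by
  rw [parExp_apply, Complex.norm_exp]
  congr 1
  have : (2 * (π : ℂ) * I * t * z) = ((2 * π * t : ℝ) : ℂ) * (I * z) := by
    push_cast; ring
  rw [this, Complex.re_ofReal_mul]
  simp

theorem parExp_bdd {t : ℝ} (ht : 0 ≤ t) : IsBoundedAtImInfty (parExp t) := by
  rw [UpperHalfPlane.isBoundedAtImInfty_iff]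
  refine ⟨1, 0, fun z _ => ?_⟩
  rw [parExp_norm]
  rw [Real.exp_le_one_iff]
  have := z.im_pos
  have hπ := Real.pi_pos
  have : 0 ≤ 2 * π * t * z.im := by positivity
  linarith

theorem parExp_vadd (t : ℝ) (h : ℝ) (z : ℍ) :
    parExp t (h +ᵥ z) = Complex.exp (2 * π * I * (t * h : ℝ)) * parExp t z := by
  rw [parExp_apply, parExp_apply, ← Complex.exp_add]
  congr 1
  rw [UpperHalfPlane.coe_vadd]
  push_cast
  ring

theorem parExp_pow (t : ℝ) (n : ℕ) : parExp t ^ n = parExp (n * t) := by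
  funext z
  rw [Pi.pow_apply, parExp_apply, parExp_apply, ← Complex.exp_nat_mul]
  congr 1
  push_cast
  ring

theorem parExp_eq_qParam_pow {h : ℕ} (hh : 0 < h) (b : ℕ) (z : ℍ) :
    parExp ((b : ℝ) / h) z = Function.Periodic.qParam (h : ℝ) (z : ℂ) ^ b := by
  rw [parExp_apply, Function.Periodic.qParam, ← Complex.exp_nat_mul]
  congr 1
  have hh' : ((h : ℕ) : ℂ) ≠ 0 := by exact_mod_cast hh.ne'
  push_cast
  field_simp

theorem parExp_hasPeriod {h : ℕ} (hh : 0 < h) (b : ℕ) : HasPeriod h (parExp ((b : ℝ) / h)) := by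
  intro z
  rw [parExp_vadd]
  have hh' : ((h : ℕ) : ℝ) ≠ 0 := by exact_mod_cast hh.ne'
  have e : ((b : ℝ) / h * (h : ℝ)) = b := by field_simp
  rw [e]
  have : Complex.exp (2 * π * I * ((b : ℝ) : ℂ)) = 1 := by
    have := Complex.exp_nat_mul_two_pi_mul_I b
    rw [← this]
    congr 1
    push_cast
    ring
  rw [this, one_mul]

theorem ordInf_parExp {h : ℕ} (hh : 0 < h) (b : ℕ) : ordInf h (parExp ((b : ℝ) / h)) = b := by
  have hhR : (0 : ℝ) < (h : ℝ) := by exact_mod_cast hh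
  have hb0 : (0 : ℝ) ≤ (b : ℝ) / h := by positivity
  have hmd := parExp_mdiff ((b : ℝ) / h)
  have han := lo_analyticAt_cusp hh hmd (parExp_hasPeriod hh b) (parExp_bdd hb0)
  have key : ∀ m : ℕ, (if m = b then (1 : ℂ) else 0) =
      PowerSeries.coeff m (qExpansion (h : ℝ) (parExp ((b : ℝ) / h))) := by
    refine UpperHalfPlane.qExpansion_coeff_unique
      (ContinuousMap.mk (parExp ((b : ℝ) / h)) hmd.continuous) hhR han ?_
    intro τ
    have h1 : (ContinuousMap.mk (parExp ((b : ℝ) / h)) hmd.continuous : C(ℍ, ℂ)) τ =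
        (fun m : ℕ => (if m = b then (1 : ℂ) else 0) •
          Function.Periodic.qParam (h : ℝ) (τ : ℂ) ^ m) b := by
      show parExp ((b : ℝ) / h) τ = _
      rw [parExp_eq_qParam_pow hh]
      simp
    rw [h1]
    apply hasSum_single
    intro m hm
    simp [hm]
  have hq : qExpansion (h : ℝ) (parExp ((b : ℝ) / h)) = PowerSeries.monomial b (1 : ℂ) := by
    ext m
    rw [← key m, PowerSeries.coeff_monomial]
  unfold ordInf
  rw [hq, PowerSeries.order_monomial_of_ne_zero b (1 : ℂ) one_ne_zero]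
  simp


theorem par_exists_exp {n : ℕ} (hn : 0 < n) {ζ : ℂ} (hζ : ζ ^ n = 1) :
    ∃ a : ℕ, a < n ∧ Complex.exp (2 * π * I * ((a : ℝ) / n : ℝ)) = ζ := by
  have hnz : NeZero n := ⟨hn.ne'⟩
  have hζ0 : ζ ≠ 0 := by
    rintro rfl
    rw [zero_pow hn.ne'] at hζ
    exact zero_ne_one hζ
  have hu : (Units.mk0 ζ hζ0) ∈ rootsOfUnity n ℂ := by
    rw [_root_.mem_rootsOfUnity]
    apply Units.ext
    simpa using hζ
  obtain ⟨a, ha, h⟩ := (Complex.mem_rootsOfUnity n _).1 hu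
  refine ⟨a, ha, ?_⟩
  rw [Units.val_mk0] at h
  rw [← h]
  congr 1
  push_cast
  ring

/-- **PAR-c**: a twisted-periodic holomorphic function bounded at `i∞` whose `n`-th power has order
divisible by `n` at the cusp is periodic. -/
theorem par_root_eq_one {h n : ℕ} (hh : 0 < h) (hn : 0 < n) {F : ℍ → ℂ} (hF : MDiff F)
    (hFb : IsBoundedAtImInfty F) (hF0 : F ≠ 0) {ζ : ℂ} (hζ : ζ ^ n = 1)
    (hFζ : ∀ z : ℍ, F ((h : ℝ) +ᵥ z) = ζ * F z) (hdvd : (n : ℤ) ∣ ordInf h (F ^ n)) : ζ = 1 := by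
  obtain ⟨a, ha, rfl⟩ := par_exists_exp hn hζ
  by_contra hne
  have ha0 : a ≠ 0 := by
    rintro rfl
    apply hne
    simp
  have hhR : ((h : ℕ) : ℝ) ≠ 0 := by exact_mod_cast hh.ne'
  have hnR : ((n : ℕ) : ℝ) ≠ 0 := by exact_mod_cast hn.ne'
  -- `b = n - a`
  obtain ⟨b, hb⟩ : ∃ b : ℕ, a + b = n := ⟨n - a, by omega⟩
  have hb0 : 0 < b := by omega
  have hbn : b < n := by omega
  set t : ℝ := (b : ℝ) / (n * h) with ht
  have ht0 : 0 ≤ t := by positivity
  -- the function `E`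
  have hEmd : MDiff (parExp t * F) := (parExp_mdiff t).mul hF
  have hEb : IsBoundedAtImInfty (parExp t * F) := (parExp_bdd ht0).mul hFb
  have hE0 : parExp t * F ≠ 0 := by
    obtain ⟨τ, hτ⟩ : ∃ τ, F τ ≠ 0 := by
      by_contra hcon
      push Not at hcon
      exact hF0 (funext hcon)
    intro h0
    have := congrFun h0 τ
    simp only [Pi.mul_apply, Pi.zero_apply, mul_eq_zero] at this
    rcases this with h1 | h1
    · exact parExp_ne_zero t τ h1
    · exact hτ h1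
  have hEp : HasPeriod h (parExp t * F) := by
    intro z
    simp only [Pi.mul_apply]
    rw [parExp_vadd, hFζ]
    have e : Complex.exp (2 * π * I * ((t * (h : ℝ) : ℝ) : ℂ)) *
        Complex.exp (2 * π * I * (((a : ℝ) / n : ℝ) : ℂ)) = 1 := by
      rw [← Complex.exp_add]
      have e1 : (2 * π * I * ((t * (h : ℝ) : ℝ) : ℂ)) + 2 * π * I * (((a : ℝ) / n : ℝ) : ℂ)
          = 2 * π * I := by
        have e2 : t * (h : ℝ) + (a : ℝ) / n = 1 := by
          rw [ht]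
          have : ((a : ℝ) + b) = n := by exact_mod_cast hb
          field_simp
          linarith
        rw [← mul_add, ← Complex.ofReal_add, e2]
        simp
      rw [e1, Complex.exp_two_pi_mul_I]
    calc Complex.exp (2 * π * I * ((t * (h : ℝ) : ℝ) : ℂ)) * parExp t z *
          (Complex.exp (2 * π * I * (((a : ℝ) / n : ℝ) : ℂ)) * F z)
        = (Complex.exp (2 * π * I * ((t * (h : ℝ) : ℝ) : ℂ)) *
            Complex.exp (2 * π * I * (((a : ℝ) / n : ℝ) : ℂ))) * (parExp t z * F z) := by ring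
      _ = parExp t z * F z := by rw [e, one_mul]
  -- `F ^ n`
  have hFn0 : F ^ n ≠ 0 := pow_ne_zero n hF0
  have hFnp : HasPeriod h (F ^ n) := by
    intro z
    simp only [Pi.pow_apply]
    rw [hFζ, mul_pow, hζ, one_mul]
  have hFnb : IsBoundedAtImInfty (F ^ n) := lo_bounded_pow hFb n
  have hFnmd : MDiff (F ^ n) := hF.pow n
  -- `E ^ n = q ^ b * F ^ n`
  have hpow : (parExp t * F) ^ n = parExp ((b : ℝ) / h) * F ^ n := by
    rw [mul_pow, parExp_pow]
    congr 2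
    rw [ht]
    field_simp
  have hbh : (0 : ℝ) ≤ (b : ℝ) / h := by positivity
  have h1 := ordInf_pow hh hEmd hEp hEb hE0 n
  have h2 := ordInf_mul hh (parExp_mdiff ((b : ℝ) / h)) hFnmd (parExp_hasPeriod hh b) hFnp
    (parExp_bdd hbh) hFnb (parExp_ne_zero' _) hFn0
  rw [hpow, h2, ordInf_parExp hh b] at h1
  have h3 : (n : ℤ) ∣ (b : ℤ) := by
    have h4 : (n : ℤ) ∣ (b : ℤ) + ordInf h (F ^ n) := ⟨_, h1⟩
    exact (Int.dvd_add_left hdvd).1 h4
  have h5 : n ∣ b := by exact_mod_cast h3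
  have := Nat.le_of_dvd hb0 h5
  omega


/-- the same statement in helper68's shape (`n ≠ 0`). -/
theorem eq_one_of_dvd_ordInf_pow {h n : ℕ} (hh : 0 < h) (hn : n ≠ 0) {F : ℍ → ℂ} (hF : MDiff F)
    (hFb : IsBoundedAtImInfty F) (hF0 : F ≠ 0) {ζ : ℂ} (hζ : ζ ^ n = 1)
    (hper : ∀ z : ℍ, F ((h : ℝ) +ᵥ z) = ζ * F z)
    (hdvd : (n : ℤ) ∣ ordInf h (F ^ n)) : ζ = 1 :=
  par_root_eq_one hh (Nat.pos_of_ne_zero hn) hF hFb hF0 hζ hper hdvd

end Fermat.Agent.EDescW
end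
end MergeWrap_E_Desc_W_ParAn

section MergeWrap_E_Desc_W_Par -- from E/Desc/W/Par.lean

set_option autoImplicit false

noncomputable section

namespace Fermat.Agent.EDescW

open UpperHalfPlane CongruenceSubgroup ModularForm ModularCurve AlgebraicCurve
open Fermat.Agent.F3I2 Fermat.Agent.F3EC
open scoped MatrixGroups ModularForm Manifold

theorem parGroupStatement : ParGroupStatement := fun γ h => exists_conj_T_zpow γ h

theorem parPlaceStatement (N : ℕ) [NeZero N] : ParPlaceStatement N := fun g =>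
  exists_cusp_place N g

theorem parAnStatement : ParAnStatement := fun _ _ hh hn _ hF hFb hF0 _ hζ hper hdvd =>
  par_root_eq_one hh hn hF hFb hF0 hζ hper hdvd

/-- **W-PAR**: the character of a theta class is trivial on the elements of trace `± 2`. -/
theorem isTheta_parabolic {N n : ℕ} [NeZero N] (hn : n ≠ 0) {χ : ↥(Gamma0 N) →* ℂˣ}
    {c : Pic0 ℂ (FC N)} (h : IsTheta N n χ c) {γ : ↥(Gamma0 N)} (hγ : IsPar γ) : χ γ = 1 :=
  isTheta_parabolic_of parGroupStatement (parPlaceStatement N) parAnStatement hn h hγ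

end Fermat.Agent.EDescW
end
end MergeWrap_E_Desc_W_Par

section MergeWrap_E_Desc_W_Final -- from E/Desc/W/Final.lean

set_option autoImplicit false

noncomputable section

namespace Fermat.Agent.EDescW

open ModularCurve ModularCurve.Period CongruenceSubgroup AlgebraicCurve
open Fermat.Agent.F3I2 Fermat.Agent.F3EC Fermat.Agent.EDesc
open scoped MatrixGroups

/-- **W-K1**, as a statement. -/
theorem thetaConjStatement (N : ℕ) [NeZero N] : ThetaConjStatement N :=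
  fun _ _ _ h => isTheta_conj h

/-- **W-PAR**, as a statement. -/
theorem parStatement (N : ℕ) [NeZero N] : ParStatement N :=
  fun _ hn _ _ h _ hγ => isTheta_parabolic hn h hγ

/-- the primes outside `S ∋ N` do not divide the prime `N`. -/
theorem out_not_dvd_prime {N : ℕ} (hN : N.Prime) {S : Finset ℕ} (hNS : N ∈ S) (r : Nat.Primes)
    (hr : (r : ℕ) ∉ S) : ¬ (r : ℕ) ∣ N := fun hd =>
  hr (((Nat.prime_dvd_prime_iff_eq r.2 hN).mp hd) ▸ hNS)

/-- **EisOrd** (odd `l'`) from W-SWAP alone. -/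
theorem eisOrd_of_swap {N : ℕ} [NeZero N] (hSwap : SwapStatement N) {l' : ℕ} (hl : l'.Prime)
    (hl2 : l' ≠ 2) {S : Finset ℕ} (hNS : ∀ r : Nat.Primes, (r : ℕ) ∉ S → ¬ (r : ℕ) ∣ N) :
    EisOrd N l' S :=
  eisOrd_of (thetaConjStatement N) (parStatement N) hSwap hl hl2 hNS

/-- **EisReal** (every prime `l'`) from W-SWAP alone. -/
theorem eisReal_of_swap {N : ℕ} [NeZero N] (hSwap : SwapStatement N) {l' : ℕ} (hl : l'.Prime)
    {S : Finset ℕ} (hNS : ∀ r : Nat.Primes, (r : ℕ) ∉ S → ¬ (r : ℕ) ∣ N) :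
    EisReal N complexConjugation l' S :=
  eisReal_of (thetaConjStatement N) (parStatement N) hSwap hl hNS

end Fermat.Agent.EDescW
end
end MergeWrap_E_Desc_W_Final
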