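import Mathlib
import Fermat.Agent.MUL.E.Desc.W.Core
import Fermat.Agent.MUL.F3.EigenPadic.Theta
import Fermat.Agent.MUL.Orig.F3.EigenChar.Involution
import Fermat.Agent.MUL.S17.H.Pos.Elim

section MergeWrap_E_Desc_W_Rat -- from E/Desc/W/Rat.lean

set_option autoImplicit false

namespace Fermat.Agent.EDescW

/-- clearing the denominators of a rational matrix. -/
theorem rat_exists_int_multiple {m : ℕ} (X : Matrix (Fin m) (Fin m) ℚ) :
    ∃ (D : ℕ) (Y : Matrix (Fin m) (Fin m) ℤ), 0 < D ∧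
      Y.map (Int.castRingHom ℚ) = (D : ℚ) • X := by
  classical
  obtain ⟨D, hDdef⟩ : ∃ D : ℕ, D = ∏ p : Fin m × Fin m, (X p.1 p.2).den := ⟨_, rfl⟩
  have hD : 0 < D := by
    rw [hDdef]
    exact Finset.prod_pos fun p _ => (X p.1 p.2).den_pos
  have key : ∀ a c, (((X a c).num * ((D / (X a c).den : ℕ) : ℤ) : ℤ) : ℚ) = (D : ℚ) * X a c := by
    intro a c
    have hdvd : (X a c).den ∣ D := by
      rw [hDdef]
      exact Finset.dvd_prod_of_mem (fun p : Fin m × Fin m => (X p.1 p.2).den)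
        (Finset.mem_univ (a, c))
    obtain ⟨t, ht⟩ := hdvd
    have hden : 0 < (X a c).den := (X a c).den_pos
    rw [ht, Nat.mul_div_cancel_left t hden]
    push_cast
    have h1 := Rat.mul_den_eq_num (X a c)
    rw [← h1]
    ring
  refine ⟨D, Matrix.of fun a c => (X a c).num * ((D / (X a c).den : ℕ) : ℤ), hD, ?_⟩
  ext a c
  rw [Matrix.map_apply, Matrix.of_apply, Matrix.smul_apply, smul_eq_mul, Int.coe_castRingHom]
  exact key a c

/-- the rational step: a rational intertwiner with nonzero determinant. -/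
theorem exists_rat_intertwiner {m : ℕ} {ι : Type*} (A B : ι → Matrix (Fin m) (Fin m) ℤ)
    (Ψ : Matrix (Fin m) (Fin m) ℂ) (hdet : Ψ.det ≠ 0)
    (h : ∀ i, Ψ * (A i).map (Int.castRingHom ℂ) = (B i).map (Int.castRingHom ℂ) * Ψ) :
    ∃ X : Matrix (Fin m) (Fin m) ℚ, X.det ≠ 0 ∧
      ∀ i, X * (A i).map (Int.castRingHom ℚ) = (B i).map (Int.castRingHom ℚ) * X := by
  classical
  let b := Module.Basis.ofVectorSpace ℚ ℂ
  let T : Finset (Module.Basis.ofVectorSpaceIndex ℚ ℂ) :=
    Finset.univ.biUnion (fun p : Fin m × Fin m => (b.repr (Ψ p.1 p.2)).support)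
  let Φ : Module.Basis.ofVectorSpaceIndex ℚ ℂ → Matrix (Fin m) (Fin m) ℚ :=
    fun k a c => b.repr (Ψ a c) k
  have hΨ : ∀ a c, Ψ a c = ∑ k ∈ T, (Φ k a c : ℂ) * (b k) := by
    intro a c
    have h1 := b.linearCombination_repr (Ψ a c)
    rw [Finsupp.linearCombination_apply, Finsupp.sum] at h1
    have hsub : (b.repr (Ψ a c)).support ⊆ T := by
      intro k hk
      exact Finset.mem_biUnion.mpr ⟨(a, c), Finset.mem_univ _, hk⟩
    rw [Finset.sum_subset hsub] at h1
    · rw [← h1]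
      refine Finset.sum_congr rfl fun k _ => ?_
      rw [Algebra.smul_def]
      rfl
    · intro k _ hk
      rw [Finsupp.notMem_support_iff.mp hk, zero_smul]
  have hΦ : ∀ k i, Φ k * (A i).map (Int.castRingHom ℚ) = (B i).map (Int.castRingHom ℚ) * Φ k := by
    intro k i
    ext a c
    have h1 := congrFun (congrFun (h i) a) c
    rw [Matrix.mul_apply, Matrix.mul_apply] at h1 ⊢
    have h2 := congrArg (b.coord k) h1
    rw [map_sum, map_sum] at h2
    have e1 : ∀ e, b.coord k (Ψ a e * ((A i).map (Int.castRingHom ℂ)) e c) =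
        Φ k a e * ((A i).map (Int.castRingHom ℚ)) e c := by
      intro e
      rw [Matrix.map_apply, Matrix.map_apply, Int.coe_castRingHom, Int.coe_castRingHom,
        ← zsmul_eq_mul', map_zsmul, zsmul_eq_mul']
      rfl
    have e2 : ∀ e, b.coord k (((B i).map (Int.castRingHom ℂ)) a e * Ψ e c) =
        ((B i).map (Int.castRingHom ℚ)) a e * Φ k e c := by
      intro e
      rw [Matrix.map_apply, Matrix.map_apply, Int.coe_castRingHom, Int.coe_castRingHom,
        ← zsmul_eq_mul, map_zsmul, zsmul_eq_mul]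
      rfl
    simp only [e1, e2] at h2
    exact h2
  let MX : Matrix (Fin m) (Fin m) (MvPolynomial (Module.Basis.ofVectorSpaceIndex ℚ ℂ) ℚ) :=
    fun a c => ∑ k ∈ T, MvPolynomial.C (Φ k a c) * MvPolynomial.X k
  have hP : MX.det ≠ 0 := by
    intro hP0
    apply hdet
    have h1 : (MvPolynomial.aeval (fun k => (b k : ℂ))) MX.det = Ψ.det := by
      rw [AlgHom.map_det]
      congr 1
      ext a c
      rw [AlgHom.mapMatrix_apply, Matrix.map_apply, hΨ a c]
      simp only [MX, map_sum, map_mul, MvPolynomial.aeval_C, MvPolynomial.aeval_X]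
      rfl
    rw [← h1, hP0, map_zero]
  obtain ⟨q, hq⟩ : ∃ q : Module.Basis.ofVectorSpaceIndex ℚ ℂ → ℚ,
      MvPolynomial.eval q MX.det ≠ 0 := by
    by_contra hcon
    push Not at hcon
    exact hP (MvPolynomial.funext (fun x => by rw [hcon x, map_zero]))
  refine ⟨∑ k ∈ T, q k • Φ k, ?_, ?_⟩
  · have h1 : MvPolynomial.eval q MX.det = (∑ k ∈ T, q k • Φ k).det := by
      rw [RingHom.map_det]
      congr 1
      ext a c
      rw [RingHom.mapMatrix_apply, Matrix.map_apply, Matrix.sum_apply]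
      simp only [MX, map_sum, map_mul, MvPolynomial.eval_C, MvPolynomial.eval_X,
        Matrix.smul_apply, smul_eq_mul]
      refine Finset.sum_congr rfl fun k _ => ?_
      rw [mul_comm]
    rw [← h1]
    exact hq
  · intro i
    rw [Finset.sum_mul, Finset.mul_sum]
    refine Finset.sum_congr rfl fun k _ => ?_
    rw [Matrix.smul_mul, Matrix.mul_smul, hΦ k i]

theorem exists_int_intertwiner {m : ℕ} {ι : Type*} (A B : ι → Matrix (Fin m) (Fin m) ℤ)
    (Ψ : Matrix (Fin m) (Fin m) ℂ) (hdet : Ψ.det ≠ 0)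
    (h : ∀ i, Ψ * (A i).map (Int.castRingHom ℂ) = (B i).map (Int.castRingHom ℂ) * Ψ) :
    ∃ (ψ ψ' : Matrix (Fin m) (Fin m) ℤ) (d : ℕ), 0 < d ∧
      ψ' * ψ = (d : ℤ) • (1 : Matrix (Fin m) (Fin m) ℤ) ∧ ∀ i, ψ * A i = B i * ψ := by
  classical
  obtain ⟨X, hXdet, hX⟩ := exists_rat_intertwiner A B Ψ hdet h
  obtain ⟨D, ψ, hD, hψ⟩ := rat_exists_int_multiple X
  have hD0 : (D : ℚ) ≠ 0 := by exact_mod_cast hD.ne'
  have hinj : Function.Injective (fun M : Matrix (Fin m) (Fin m) ℤ => M.map (Int.castRingHom ℚ)) :=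
    Matrix.map_injective (RingHom.injective_int (Int.castRingHom ℚ))
  have hψdet : ψ.det ≠ 0 := by
    intro h0
    have h1 : (ψ.map (Int.castRingHom ℚ)).det = 0 := by
      have := (Int.castRingHom ℚ).map_det ψ
      rw [RingHom.mapMatrix_apply] at this
      rw [← this, h0, map_zero]
    rw [hψ, Matrix.det_smul] at h1
    rcases mul_eq_zero.mp h1 with h2 | h2
    · exact pow_ne_zero _ hD0 h2
    · exact hXdet h2
  have hint : ∀ i, ψ * A i = B i * ψ := by
    intro i
    apply hinj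
    show (ψ * A i).map (Int.castRingHom ℚ) = (B i * ψ).map (Int.castRingHom ℚ)
    rw [Matrix.map_mul, Matrix.map_mul, hψ, Matrix.smul_mul, Matrix.mul_smul, hX i]
  refine ⟨ψ, ψ.det • ψ.adjugate, ψ.det.natAbs ^ 2, pow_pos (Int.natAbs_pos.mpr hψdet) 2, ?_, hint⟩
  rw [Matrix.smul_mul, Matrix.adjugate_mul, smul_smul]
  congr 1
  push_cast
  rw [sq_abs, sq]

end Fermat.Agent.EDescW
end MergeWrap_E_Desc_W_Rat

section MergeWrap_E_Desc_W_SwapLin -- from E/Desc/W/SwapLin.lean

/-!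
# Cluster E' (descent), leaf W-SWAP, generic half (helper17)

`H` a free `ℤ`-module of finite rank with endomorphisms `T i`, `J`; a `ℂ`-linear automorphism `Ψ` of
`ℂ ⊗ H` commuting with the `T i` and anticommuting with `J` descends, up to a positive integer
`d`, to `ℤ`-linear maps `ψ, ψ' : H → H` with `ψ' ψ = d`, `ψ T i = T i ψ`, `ψ J = - J ψ`
(W-RAT `exists_int_intertwiner` in a basis).
-/

set_option autoImplicit false
set_option linter.unusedSectionVars false
set_option linter.unusedVariables false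

noncomputable section

namespace Fermat.Agent.EDescW

open TensorProduct

theorem exists_swap_of_complex {H : Type*} [AddCommGroup H] [Module.Free ℤ H] [Module.Finite ℤ H]
    {ι : Type*} (T : ι → H →ₗ[ℤ] H) (J : H →ₗ[ℤ] H)
    (Ψ : (ℂ ⊗[ℤ] H) ≃ₗ[ℂ] (ℂ ⊗[ℤ] H))
    (hT : ∀ i t, Ψ ((T i).baseChange ℂ t) = (T i).baseChange ℂ (Ψ t))
    (hJ : ∀ t, Ψ (J.baseChange ℂ t) = - J.baseChange ℂ (Ψ t)) :
    ∃ (ψ ψ' : H →ₗ[ℤ] H) (d : ℕ), 0 < d ∧ (∀ c, ψ' (ψ c) = d • c) ∧
      (∀ i c, ψ (T i c) = T i (ψ c)) ∧ (∀ c, ψ (J c) = - J (ψ c)) := by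
  classical
  set m := Module.finrank ℤ H with hm
  let b : Module.Basis (Fin m) ℤ H := Module.finBasis ℤ H
  let bC : Module.Basis (Fin m) ℂ (ℂ ⊗[ℤ] H) := Algebra.TensorProduct.basis ℂ b
  let A : Option ι → Matrix (Fin m) (Fin m) ℤ := fun k =>
    match k with
    | some i => LinearMap.toMatrix b b (T i)
    | none => LinearMap.toMatrix b b J
  let B : Option ι → Matrix (Fin m) (Fin m) ℤ := fun k =>
    match k with
    | some i => LinearMap.toMatrix b b (T i)
    | none => - LinearMap.toMatrix b b J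
  let P : Matrix (Fin m) (Fin m) ℂ := LinearMap.toMatrix bC bC (Ψ : (ℂ ⊗[ℤ] H) →ₗ[ℂ] (ℂ ⊗[ℤ] H))
  have hbc : ∀ f : H →ₗ[ℤ] H, LinearMap.toMatrix bC bC (f.baseChange ℂ) =
      (LinearMap.toMatrix b b f).map (Int.castRingHom ℂ) := by
    intro f
    have := LinearMap.toMatrix_baseChange ℂ f b b
    rw [algebraMap_int_eq] at this
    exact this
  have hdet : P.det ≠ 0 := by
    have h1 : P.det = LinearMap.det (Ψ : (ℂ ⊗[ℤ] H) →ₗ[ℂ] (ℂ ⊗[ℤ] H)) :=
      LinearMap.det_toMatrix bC _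
    rw [h1]
    exact (LinearEquiv.isUnit_det' Ψ).ne_zero
  have hcomm : ∀ k, P * (A k).map (Int.castRingHom ℂ) = (B k).map (Int.castRingHom ℂ) * P := by
    intro k
    cases k with
    | some i =>
      show P * (LinearMap.toMatrix b b (T i)).map (Int.castRingHom ℂ) =
        (LinearMap.toMatrix b b (T i)).map (Int.castRingHom ℂ) * P
      rw [← hbc, ← LinearMap.toMatrix_comp bC bC bC, ← LinearMap.toMatrix_comp bC bC bC]
      congr 1
      ext t
      exact hT i _
    | none =>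
      show P * (LinearMap.toMatrix b b J).map (Int.castRingHom ℂ) =
        (- LinearMap.toMatrix b b J).map (Int.castRingHom ℂ) * P
      have e : (- LinearMap.toMatrix b b J).map (Int.castRingHom ℂ) =
          - (LinearMap.toMatrix b b J).map (Int.castRingHom ℂ) := by
        ext i j
        simp
      rw [e, ← hbc, neg_mul, ← LinearMap.toMatrix_comp bC bC bC, ← LinearMap.toMatrix_comp bC bC bC,
        ← map_neg]
      congr 1
      ext t
      simpa using hJ (1 ⊗ₜ t)
  obtain ⟨ψm, ψm', d, hd, hmul, hint⟩ := exists_int_intertwiner A B P hdet hcomm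
  refine ⟨Matrix.toLin b b ψm, Matrix.toLin b b ψm', d, hd, fun c => ?_, fun i c => ?_, fun c => ?_⟩
  · have h1 : (Matrix.toLin b b ψm') ∘ₗ (Matrix.toLin b b ψm) = (d : ℤ) • LinearMap.id := by
      rw [← Matrix.toLin_mul b b b, hmul, map_smul, Matrix.toLin_one]
    have h2 := congrArg (fun f : H →ₗ[ℤ] H => f c) h1
    simpa using h2
  · have h1 : (Matrix.toLin b b ψm) ∘ₗ (T i) = (T i) ∘ₗ (Matrix.toLin b b ψm) := by
      have h3 := hint (some i)
      have h4 : ψm * LinearMap.toMatrix b b (T i) = LinearMap.toMatrix b b (T i) * ψm := h3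
      have h5 := congrArg (Matrix.toLin b b) h4
      rw [Matrix.toLin_mul b b b, Matrix.toLin_mul b b b, Matrix.toLin_toMatrix] at h5
      exact h5
    exact congrArg (fun f : H →ₗ[ℤ] H => f c) h1
  · have h1 : (Matrix.toLin b b ψm) ∘ₗ J = - (J ∘ₗ (Matrix.toLin b b ψm)) := by
      have h3 := hint none
      have h4 : ψm * LinearMap.toMatrix b b J = - LinearMap.toMatrix b b J * ψm := h3
      have h5 := congrArg (Matrix.toLin b b) h4
      rw [Matrix.toLin_mul b b b, neg_mul, map_neg, Matrix.toLin_mul b b b,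
        Matrix.toLin_toMatrix] at h5
      exact h5
    have h2 := congrArg (fun f : H →ₗ[ℤ] H => f c) h1
    simpa using h2

end Fermat.Agent.EDescW
end
end MergeWrap_E_Desc_W_SwapLin

section MergeWrap_E_Desc_W_SwapAll -- from E/Desc/W/SwapAll.lean

/-!
# Cluster E' (descent), leaf W-SWAP (helper17): the swap of the two Eichler–Shimura summands

`periodHomPair N (f, g) = (1 + J) P f + (1 - J) P g` is an isomorphism `S₂ × S₂ ≃ ℂ ⊗ HomPar N`
(S21).  `Ψ := (f, g) ↦ (g, f)` commutes with the Hecke operators and anticommutes with `J`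
(`J ↔ (f, g) ↦ (f, -g)`).  By `exists_swap_of_complex` it descends to `HomPar N`.
-/

set_option autoImplicit false
set_option linter.unusedSectionVars false
set_option linter.unusedVariables false

noncomputable section

namespace Fermat.Agent.EDescW

open CongruenceSubgroup ModularCurve ModularCurve.Period
open Fermat.Agent.F3EC Fermat.Agent.F3EP
open scoped TensorProduct MatrixGroups

variable (N : ℕ) [NeZero N]

local notation "S₂" => CuspForm (Gamma0 N) 2

/-- the swap on `ℂ ⊗ HomPar N`. -/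
def swapAllC : (ℂ ⊗[ℤ] HomPar N) ≃ₗ[ℂ] (ℂ ⊗[ℤ] HomPar N) :=
  (periodEquiv N).symm ≪≫ₗ (LinearEquiv.prodComm ℂ S₂ S₂) ≪≫ₗ periodEquiv N

theorem swapAll_periodEquiv (f g : S₂) : swapAllC N (periodEquiv N (f, g)) = periodEquiv N (g, f) := by
  unfold swapAllC
  simp only [LinearEquiv.trans_apply, LinearEquiv.symm_apply_apply]
  rfl

theorem swapAll_heckeInvolutionComm : HeckeInvolutionComm N :=
  fun ℓ _ hℓN c => heckeHomAll_charInvolution hℓN c

theorem swapAll_hecke (ℓ : Nat.Primes) (hℓN : ¬ (ℓ : ℕ) ∣ N) (t : ℂ ⊗[ℤ] HomPar N) :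
    swapAllC N ((heckeHom N ℓ).baseChange ℂ t) = (heckeHom N ℓ).baseChange ℂ (swapAllC N t) := by
  have h := tauHom_heckeTLin N (swapAll_heckeInvolutionComm N) ℓ.2 hℓN
  have e : (heckeHom N ℓ).baseChange ℂ = tauHom N (CuspForm.heckeTLin 2 ℓ.2 hℓN) := h.symm
  rw [e]
  obtain ⟨⟨f, g⟩, rfl⟩ := (periodEquiv N).surjective t
  have h1 : tauHom N (CuspForm.heckeTLin 2 ℓ.2 hℓN) (periodEquiv N (f, g)) =
      periodEquiv N (CuspForm.heckeTLin 2 ℓ.2 hℓN f, CuspForm.heckeTLin 2 ℓ.2 hℓN g) := by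
    rw [tauHom_apply, LinearEquiv.symm_apply_apply, LinearMap.prodMap_apply]
  have h2 : tauHom N (CuspForm.heckeTLin 2 ℓ.2 hℓN) (periodEquiv N (g, f)) =
      periodEquiv N (CuspForm.heckeTLin 2 ℓ.2 hℓN g, CuspForm.heckeTLin 2 ℓ.2 hℓN f) := by
    rw [tauHom_apply, LinearEquiv.symm_apply_apply, LinearMap.prodMap_apply]
  rw [h1, swapAll_periodEquiv, swapAll_periodEquiv, h2]

theorem swapAll_compMap_conjHom (t : ℂ ⊗[ℤ] HomPar N) :
    compMap N ((conjHom N).baseChange ℂ t) = charInvolution N ℂ ℂ (compMap N t) := by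
  induction t using TensorProduct.induction_on with
  | zero => simp
  | tmul z c =>
    refine AddMonoidHom.ext fun γ => ?_
    obtain ⟨γ, rfl⟩ := Additive.ofMul.surjective γ
    rw [LinearMap.baseChange_tmul, compMap_tmul, charInvolution_apply, compMap_tmul]
    rfl
  | add x y hx hy => simp only [map_add, hx, hy]

theorem swapAll_periodEquiv_conj (f g : S₂) :
    (conjHom N).baseChange ℂ (periodEquiv N (f, g)) = periodEquiv N (f, -g) := by
  apply compMap_injective N
  rw [swapAll_compMap_conjHom, compMap_periodEquiv, compMap_periodEquiv,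
    Fermat.Agent.S21.periodHomPair_apply, Fermat.Agent.S21.periodHomPair_apply]
  obtain ⟨pml, hpml⟩ := Fermat.Agent.S21.existsPeriodMapLinear N
  rw [← hpml, ← hpml, ← hpml, map_neg]
  simp only [map_add, map_sub, map_neg, charInvolution_charInvolution]
  abel

theorem swapAll_conj (t : ℂ ⊗[ℤ] HomPar N) :
    swapAllC N ((conjHom N).baseChange ℂ t) = - (conjHom N).baseChange ℂ (swapAllC N t) := by
  obtain ⟨⟨f, g⟩, rfl⟩ := (periodEquiv N).surjective t
  rw [swapAll_periodEquiv_conj, swapAll_periodEquiv, swapAll_periodEquiv, swapAll_periodEquiv_conj, ← map_neg]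
  congr 1
  ext <;> simp

/-- **W-SWAP.** -/
theorem swapStatement_all : SwapStatement N := by
  obtain ⟨ψ, ψ', d, hd, h1, h2, h3⟩ := exists_swap_of_complex
    (H := HomPar N) (ι := {ℓ : Nat.Primes // ¬ (ℓ : ℕ) ∣ N})
    (fun ℓ => heckeHom N ℓ.1) (conjHom N) (swapAllC N)
    (fun ℓ t => swapAll_hecke N ℓ.1 ℓ.2 t) (swapAll_conj N)
  exact ⟨ψ, ψ', d, hd, h1, fun ℓ hℓ c => h2 ⟨ℓ, hℓ⟩ c, h3⟩

/-- the same in the shape of helper34's note. -/
theorem exists_swap_all :
    ∃ (ψ ψ' : HomPar N →ₗ[ℤ] HomPar N) (d : ℕ), 0 < d ∧ (∀ c, ψ' (ψ c) = d • c) ∧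
      (∀ ℓ : Nat.Primes, ¬ (ℓ : ℕ) ∣ N → ∀ c, ψ (heckeHom N ℓ c) = heckeHom N ℓ (ψ c)) ∧
      (∀ c, ψ (conjHom N c) = -conjHom N (ψ c)) :=
  swapStatement_all N

end Fermat.Agent.EDescW
end
end MergeWrap_E_Desc_W_SwapAll
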